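/-
LR / node [MTX], part 1 (abstract): transfer along a point stabiliser versus a cocycle operator.

`G` acts on the right on a finite set `X` (`act (g * h) x = act h (act g x)`), and
`coc : X → G → G` is a cocycle for this action (`coc x (g * h) = coc x g * coc (act g x) h`).
The cocycle operator is `(T χ)(g) = ∑ₓ χ (coc x g)` on `Hom(G, A)`.

For a base point `x₀` with representatives `r x` (`x₀ ⋆ r x = x`), the stabiliser `Stab(x₀)`
carries the homomorphism `β = coc x₀ : Stab(x₀) → G`, and with the transfer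
`(cor φ)(g) = ∑ₓ φ (r x · g · (r (x ⋆ g))⁻¹)` one has

* `lrt_T_eq_cor`  : `T χ = cor (χ ∘ β)`        (for EVERY base point `x₀`);
* `lrt_cor_res`   : `cor (χ|Stab) = |X| • χ`.

Prefix `lrt_`.
-/
import Mathlib

set_option autoImplicit false

noncomputable section

namespace Fermat.Agent.LR

/-- a right action of `G` on `X` together with a `G`-valued cocycle -/
structure lrt_Data (G : Type*) (X : Type*) [Group G] where
  act : G → X → X
  act_one : ∀ x, act 1 x = x
  act_mul : ∀ g h x, act (g * h) x = act h (act g x)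
  coc : X → G → G
  coc_one : ∀ x, coc x 1 = 1
  coc_mul : ∀ x g h, coc x (g * h) = coc x g * coc (act g x) h

variable {G : Type*} {X : Type*} {A : Type*} [Group G] [AddCommGroup A]

/-- evaluation of an additive character at a group element -/
def lrt_ev {H : Type*} [Group H] (χ : Additive H →+ A) (g : H) : A := χ (Additive.ofMul g)

theorem lrt_ev_mul {H : Type*} [Group H] (χ : Additive H →+ A) (g h : H) :
    lrt_ev χ (g * h) = lrt_ev χ g + lrt_ev χ h := by
  unfold lrt_ev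
  rw [ofMul_mul, map_add]

theorem lrt_ev_one {H : Type*} [Group H] (χ : Additive H →+ A) : lrt_ev χ (1 : H) = 0 := by
  unfold lrt_ev
  rw [ofMul_one, map_zero]

theorem lrt_ev_inv {H : Type*} [Group H] (χ : Additive H →+ A) (g : H) :
    lrt_ev χ g⁻¹ = - lrt_ev χ g := by
  unfold lrt_ev
  rw [ofMul_inv, map_neg]

theorem lrt_ext {H : Type*} [Group H] {χ χ' : Additive H →+ A}
    (h : ∀ g : H, lrt_ev χ g = lrt_ev χ' g) : χ = χ' := by
  refine AddMonoidHom.ext fun g => ?_
  obtain ⟨g, rfl⟩ := Additive.ofMul.surjective g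
  exact h g

variable (D : lrt_Data G X)

theorem lrt_act_inv (g : G) (x : X) : D.act g⁻¹ (D.act g x) = x := by
  rw [← D.act_mul, mul_inv_cancel, D.act_one]

theorem lrt_act_inv' (g : G) (x : X) : D.act g (D.act g⁻¹ x) = x := by
  rw [← D.act_mul, inv_mul_cancel, D.act_one]

/-- `x ↦ x ⋆ g` as a permutation -/
def lrt_perm (g : G) : Equiv.Perm X where
  toFun := D.act g
  invFun := D.act g⁻¹
  left_inv := lrt_act_inv D g
  right_inv := lrt_act_inv' D g

theorem lrt_perm_apply (g : G) (x : X) : lrt_perm D g x = D.act g x := rfl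

section opT

variable [Fintype X]

/-- the cocycle operator `(T χ)(g) = ∑ₓ χ (coc x g)` -/
def lrt_T (χ : Additive G →+ A) : Additive G →+ A where
  toFun g := ∑ x : X, lrt_ev χ (D.coc x (Additive.toMul g))
  map_zero' := by simp [D.coc_one, lrt_ev_one]
  map_add' g h := by
    simp only [toMul_add, D.coc_mul, lrt_ev_mul, Finset.sum_add_distrib]
    congr 1
    exact Equiv.sum_comp (lrt_perm D (Additive.toMul g))
      fun x => lrt_ev χ (D.coc x (Additive.toMul h))

theorem lrt_T_ev (χ : Additive G →+ A) (g : G) :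
    lrt_ev (lrt_T D χ) g = ∑ x : X, lrt_ev χ (D.coc x g) := rfl

end opT

/-- the stabiliser of `x₀` -/
def lrt_stab (x₀ : X) : Subgroup G where
  carrier := {g | D.act g x₀ = x₀}
  mul_mem' := by
    intro g h (hg : D.act g x₀ = x₀) (hh : D.act h x₀ = x₀)
    show D.act (g * h) x₀ = x₀
    rw [D.act_mul, hg, hh]
  one_mem' := D.act_one x₀
  inv_mem' := by
    intro g (hg : D.act g x₀ = x₀)
    show D.act g⁻¹ x₀ = x₀
    have h := lrt_act_inv D g x₀
    rwa [hg] at h

theorem lrt_mem_stab {x₀ : X} {g : G} : g ∈ lrt_stab D x₀ ↔ D.act g x₀ = x₀ := Iff.rfl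

/-- `β = coc x₀` is a homomorphism on the stabiliser of `x₀` -/
def lrt_beta (x₀ : X) : lrt_stab D x₀ →* G where
  toFun g := D.coc x₀ (g : G)
  map_one' := D.coc_one x₀
  map_mul' g h := by
    change D.coc x₀ ((g : G) * (h : G)) = _
    rw [D.coc_mul, (show D.act (g : G) x₀ = x₀ from g.2)]

theorem lrt_beta_apply (x₀ : X) (g : lrt_stab D x₀) : lrt_beta D x₀ g = D.coc x₀ (g : G) := rfl

section reps

variable (x₀ : X) (r : X → G) (hr : ∀ x, D.act (r x) x₀ = x)

/-- the transfer cocycle `r x · g · (r (x ⋆ g))⁻¹ ∈ Stab(x₀)` -/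
def lrt_a (x : X) (g : G) : lrt_stab D x₀ :=
  ⟨r x * g * (r (D.act g x))⁻¹, by
    show D.act (r x * g * (r (D.act g x))⁻¹) x₀ = x₀
    rw [D.act_mul, D.act_mul, hr]
    have h := lrt_act_inv D (r (D.act g x)) x₀
    rwa [hr] at h⟩

theorem lrt_a_coe (x : X) (g : G) :
    ((lrt_a D x₀ r hr x g : lrt_stab D x₀) : G) = r x * g * (r (D.act g x))⁻¹ := rfl

theorem lrt_a_one (x : X) : lrt_a D x₀ r hr x 1 = 1 := by
  apply Subtype.ext
  rw [lrt_a_coe, D.act_one, mul_one, mul_inv_cancel]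
  rfl

theorem lrt_a_mul (x : X) (g h : G) :
    lrt_a D x₀ r hr x (g * h) = lrt_a D x₀ r hr x g * lrt_a D x₀ r hr (D.act g x) h := by
  apply Subtype.ext
  rw [Subgroup.coe_mul, lrt_a_coe, lrt_a_coe, lrt_a_coe, D.act_mul]
  group

/-- the cocycle at `x` in terms of the cocycle at the base point -/
theorem lrt_coc_a (x : X) (g : G) :
    D.coc x₀ (lrt_a D x₀ r hr x g : G) =
      D.coc x₀ (r x) * D.coc x g * (D.coc x₀ (r (D.act g x)))⁻¹ := by
  have h1 : D.coc (D.act g x) (r (D.act g x))⁻¹ = (D.coc x₀ (r (D.act g x)))⁻¹ := by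
    have h := D.coc_mul x₀ (r (D.act g x)) (r (D.act g x))⁻¹
    rw [mul_inv_cancel, D.coc_one, hr] at h
    exact eq_inv_of_mul_eq_one_right h.symm
  rw [lrt_a_coe, D.coc_mul, D.coc_mul, D.act_mul, hr, h1]

variable [Fintype X]

/-- the transfer `Hom(Stab(x₀), A) → Hom(G, A)` -/
def lrt_corFun (φ : Additive (lrt_stab D x₀) →+ A) : Additive G →+ A where
  toFun g := ∑ x : X, lrt_ev φ (lrt_a D x₀ r hr x (Additive.toMul g))
  map_zero' := by simp [lrt_a_one, lrt_ev_one]
  map_add' g h := by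
    simp only [toMul_add, lrt_a_mul, lrt_ev_mul, Finset.sum_add_distrib]
    congr 1
    exact Equiv.sum_comp (lrt_perm D (Additive.toMul g))
      fun x => lrt_ev φ (lrt_a D x₀ r hr x (Additive.toMul h))

/-- the transfer, additive in the character -/
def lrt_cor : (Additive (lrt_stab D x₀) →+ A) →+ (Additive G →+ A) where
  toFun := lrt_corFun D x₀ r hr
  map_zero' := by
    refine lrt_ext fun g => ?_
    simp [lrt_corFun, lrt_ev]
  map_add' φ φ' := by
    refine lrt_ext fun g => ?_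
    simp [lrt_corFun, lrt_ev, Finset.sum_add_distrib]

theorem lrt_cor_ev (φ : Additive (lrt_stab D x₀) →+ A) (g : G) :
    lrt_ev (lrt_cor D x₀ r hr φ) g = ∑ x : X, lrt_ev φ (lrt_a D x₀ r hr x g) := rfl

/-- **`T = cor ∘ β^*`**, for every base point -/
theorem lrt_T_eq_cor (χ : Additive G →+ A) :
    lrt_T D χ = lrt_cor D x₀ r hr (χ.comp (MonoidHom.toAdditive (lrt_beta D x₀))) := by
  refine lrt_ext fun g => ?_
  rw [lrt_T_ev, lrt_cor_ev]
  have h : ∀ x : X, lrt_ev (χ.comp (MonoidHom.toAdditive (lrt_beta D x₀))) (lrt_a D x₀ r hr x g) =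
      lrt_ev χ (D.coc x₀ (r x)) + lrt_ev χ (D.coc x g) - lrt_ev χ (D.coc x₀ (r (D.act g x))) := by
    intro x
    have h1 : lrt_ev (χ.comp (MonoidHom.toAdditive (lrt_beta D x₀))) (lrt_a D x₀ r hr x g) =
        lrt_ev χ (D.coc x₀ (lrt_a D x₀ r hr x g : G)) := rfl
    rw [h1, lrt_coc_a, lrt_ev_mul, lrt_ev_mul, lrt_ev_inv, sub_eq_add_neg]
  rw [Finset.sum_congr rfl fun x _ => h x, Finset.sum_sub_distrib, Finset.sum_add_distrib]
  have h2 : ∑ x : X, lrt_ev χ (D.coc x₀ (r (D.act g x))) = ∑ x : X, lrt_ev χ (D.coc x₀ (r x)) :=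
    Equiv.sum_comp (lrt_perm D g) fun x => lrt_ev χ (D.coc x₀ (r x))
  rw [h2]
  abel

/-- **`cor ∘ res = |X|`** -/
theorem lrt_cor_res (χ : Additive G →+ A) :
    lrt_cor D x₀ r hr (χ.comp (MonoidHom.toAdditive (lrt_stab D x₀).subtype)) =
      Fintype.card X • χ := by
  refine lrt_ext fun g => ?_
  rw [lrt_cor_ev]
  have h : ∀ x : X, lrt_ev (χ.comp (MonoidHom.toAdditive (lrt_stab D x₀).subtype))
      (lrt_a D x₀ r hr x g) = lrt_ev χ (r x) + lrt_ev χ g - lrt_ev χ (r (D.act g x)) := by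
    intro x
    have h1 : lrt_ev (χ.comp (MonoidHom.toAdditive (lrt_stab D x₀).subtype))
        (lrt_a D x₀ r hr x g) = lrt_ev χ (lrt_a D x₀ r hr x g : G) := rfl
    rw [h1, lrt_a_coe, lrt_ev_mul, lrt_ev_mul, lrt_ev_inv, sub_eq_add_neg]
  rw [Finset.sum_congr rfl fun x _ => h x, Finset.sum_sub_distrib, Finset.sum_add_distrib]
  have h2 : ∑ x : X, lrt_ev χ (r (D.act g x)) = ∑ x : X, lrt_ev χ (r x) :=
    Equiv.sum_comp (lrt_perm D g) fun x => lrt_ev χ (r x)
  rw [h2, Finset.sum_const, Finset.card_univ]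
  have h3 : lrt_ev (Fintype.card X • χ) g = Fintype.card X • lrt_ev χ g := rfl
  rw [h3]
  abel

end reps

end Fermat.Agent.LR
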