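/-
LR / node [MTX], part 2: the matrix `i† i = [[q + 1, T_q], [T_q, q + 1]]` on `Hom(Γ₀(N), A)`.

For a prime `q ∤ N`:
* `lrm_incl N q`, `lrm_beta hqN : Γ₀(Nq) →* Γ₀(N)` : the inclusion and `β = Ad diag(q, 1)`
  (`[[a, b], [c, d]] ↦ [[a, q b], [c / q, d]]`, see `lrm_beta_entries`);
* `lrm_resA N q = A^*`, `lrm_resB hqN = B^*` : `Hom(Γ₀(N), A) →+ Hom(Γ₀(Nq), A)`;
* `lrm_corA hqN = A_*`, `lrm_corB hqN = B_*` : the transfers `Hom(Γ₀(Nq), A) →+ Hom(Γ₀(N), A)`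
  along the inclusion and along `β`;
* `lrm_corA_resA`, `lrm_corB_resB` : `A_* A^* = B_* B^* = q + 1`;
* `lrm_corA_resB`, `lrm_corB_resA` : `A_* B^* = B_* A^* = T_q` (`= t2c_Tadd hqN`, the coset operator of
  `JT3/T2/Coset.lean`) — the SAME operator both ways, because `T = cor_{Stab(x₀)} ∘ (coc x₀)^*`
  for every base point `x₀ ∈ ℙ¹(𝔽_q)` (`lrt_T_eq_cor`): `x₀ = ∞` gives `A_* B^*`, `x₀ = 0` gives
  `B_* A^*`.
Prefix `lrm_`.
-/
import Mathlib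
import Fermat.Agent.JT3.T2.Coset
import Fermat.Agent.LR.MTX.Transfer

set_option autoImplicit false

noncomputable section

open CongruenceSubgroup Matrix.SpecialLinearGroup
open P2MW.S_ModularForm_heckeT_slash_eq_self_of_mem_Gamma0.ModularForm.HeckeSlashInvariance
open scoped MatrixGroups OnePoint
open Fermat.Agent.JT3

namespace Fermat.Agent.LR

variable {N : ℕ} {q : ℕ} [Fact q.Prime]

/-- the action/cocycle datum of `T_q` on `Γ₀(N)` -/
def lrm_data (hqN : ¬ q ∣ N) : lrt_Data (Gamma0 N) (OnePoint (ZMod q)) where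
  act g x := t2c_act (g : SL(2, ℤ)) x
  act_one x := by rw [Subgroup.coe_one, t2c_act_one]
  act_mul g h x := by rw [Subgroup.coe_mul, t2c_act_mul]
  coc := t2c_coc hqN
  coc_one := t2c_coc_one hqN
  coc_mul := t2c_coc_mul hqN

theorem lrm_act_infty (g : SL(2, ℤ)) :
    t2c_act g (∞ : OnePoint (ZMod q)) = ∞ ↔ (q : ℤ) ∣ g 1 0 := by
  rw [t2c_act, OnePoint.smul_infty_eq_ite, redMatrix_apply_one_zero]
  by_cases h : ((g 1 0 : ℤ) : ZMod q) = 0
  · rw [if_pos h]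
    exact ⟨fun _ => (ZMod.intCast_zmod_eq_zero_iff_dvd _ _).mp h, fun _ => rfl⟩
  · rw [if_neg h]
    exact ⟨fun h1 => absurd h1 (OnePoint.coe_ne_infty _),
      fun h1 => absurd ((ZMod.intCast_zmod_eq_zero_iff_dvd _ _).mpr h1) h⟩

theorem lrm_act_zero (g : SL(2, ℤ)) :
    t2c_act g ((0 : ZMod q) : OnePoint (ZMod q)) = ((0 : ZMod q) : OnePoint (ZMod q)) ↔
      (q : ℤ) ∣ g 0 1 := by
  rw [t2c_act, OnePoint.smul_some_eq_ite, redMatrix_apply_one_zero, redMatrix_apply_one_one,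
    redMatrix_apply_zero_zero, redMatrix_apply_zero_one, mul_zero, zero_add, mul_zero, zero_add]
  have hdet := congrArg (Int.cast : ℤ → ZMod q) (det_eq g)
  push_cast at hdet
  by_cases ha : ((g 0 0 : ℤ) : ZMod q) = 0
  · rw [if_pos ha]
    constructor
    · intro h
      exact absurd h.symm (OnePoint.coe_ne_infty _)
    · intro h
      have hb := (ZMod.intCast_zmod_eq_zero_iff_dvd _ _).mpr h
      rw [ha, hb] at hdet
      simp at hdet
  · rw [if_neg ha]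
    constructor
    · intro h
      have h1 := OnePoint.coe_injective h
      rcases div_eq_zero_iff.mp h1 with h2 | h2
      · exact (ZMod.intCast_zmod_eq_zero_iff_dvd _ _).mp h2
      · exact absurd h2 ha
    · intro h
      rw [(ZMod.intCast_zmod_eq_zero_iff_dvd _ _).mpr h, zero_div]


theorem lrm_heckeRep_zero :
    heckeRep q ((0 : ZMod q) : OnePoint (ZMod q)) = ModularForm.heckeMatrix q 0 := by
  rw [heckeRep_coe, ZMod.val_zero]

theorem lrm_entries_infty {g g' : SL(2, ℤ)}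
    (h : heckeRep q ∞ * mapGL ℝ g = mapGL ℝ g' * heckeRep q ∞) :
    g' 0 0 = g 0 0 ∧ g' 0 1 = q * g 0 1 ∧ (q : ℤ) * g' 1 0 = g 1 0 ∧ g' 1 1 = g 1 1 := by
  have hq : q ≠ 0 := (Fact.out : q.Prime).ne_zero
  have hqR : (q : ℝ) ≠ 0 := by exact_mod_cast hq
  rw [heckeRep_infty] at h
  have e := fun i j => congrArg (fun M : GL (Fin 2) ℝ => (M : Matrix (Fin 2) (Fin 2) ℝ) i j) h
  have e00 := e 0 0
  have e01 := e 0 1
  have e10 := e 1 0
  have e11 := e 1 1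
  simp [hq, Matrix.mul_apply, Fin.sum_univ_two] at e00 e01 e10 e11
  refine ⟨?_, ?_, ?_, ?_⟩
  · have : (q : ℝ) * ((g' 0 0 : ℤ) : ℝ) = (q : ℝ) * ((g 0 0 : ℤ) : ℝ) := by linarith
    exact_mod_cast mul_left_cancel₀ hqR this
  · have : ((g' 0 1 : ℤ) : ℝ) = (q : ℝ) * ((g 0 1 : ℤ) : ℝ) := by linarith
    exact_mod_cast this
  · have : (q : ℝ) * ((g' 1 0 : ℤ) : ℝ) = ((g 1 0 : ℤ) : ℝ) := by linarith
    exact_mod_cast this
  · exact_mod_cast e11.symm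

theorem lrm_entries_zero {g g' : SL(2, ℤ)}
    (h : heckeRep q ((0 : ZMod q) : OnePoint (ZMod q)) * mapGL ℝ g =
      mapGL ℝ g' * heckeRep q ((0 : ZMod q) : OnePoint (ZMod q))) :
    g' 0 0 = g 0 0 ∧ (q : ℤ) * g' 0 1 = g 0 1 ∧ g' 1 0 = q * g 1 0 ∧ g' 1 1 = g 1 1 := by
  have hq : q ≠ 0 := (Fact.out : q.Prime).ne_zero
  have hqR : (q : ℝ) ≠ 0 := by exact_mod_cast hq
  rw [lrm_heckeRep_zero] at h
  have e := fun i j => congrArg (fun M : GL (Fin 2) ℝ => (M : Matrix (Fin 2) (Fin 2) ℝ) i j) h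
  have e00 := e 0 0
  have e01 := e 0 1
  have e10 := e 1 0
  have e11 := e 1 1
  simp [hq, Matrix.mul_apply, Fin.sum_univ_two] at e00 e01 e10 e11
  refine ⟨?_, ?_, ?_, ?_⟩
  · exact_mod_cast e00.symm
  · have : (q : ℝ) * ((g' 0 1 : ℤ) : ℝ) = ((g 0 1 : ℤ) : ℝ) := by linarith
    exact_mod_cast this
  · have : ((g' 1 0 : ℤ) : ℝ) = (q : ℝ) * ((g 1 0 : ℤ) : ℝ) := by linarith
    exact_mod_cast this
  · have : (q : ℝ) * ((g' 1 1 : ℤ) : ℝ) = (q : ℝ) * ((g 1 1 : ℤ) : ℝ) := by linarith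
    exact_mod_cast mul_left_cancel₀ hqR this


/-! ### Transitivity: representatives -/

theorem lrm_exists_rep_infty (N : ℕ) (hqN : ¬ q ∣ N) (x : OnePoint (ZMod q)) :
    ∃ γ : Gamma0 N, t2c_act (γ : SL(2, ℤ)) (∞ : OnePoint (ZMod q)) = x := by
  induction x using OnePoint.rec with
  | infty => exact ⟨1, by rw [Subgroup.coe_one, t2c_act_one]⟩
  | coe j =>
    have hN : ((N : ℕ) : ZMod q) ≠ 0 := by
      rw [Ne, ZMod.natCast_eq_zero_iff]
      exact hqN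
    set c' : ℤ := (((N : ZMod q)⁻¹).val : ℤ) with hc'
    have hc1 : (((N : ℤ) * c' : ℤ) : ZMod q) = 1 := by
      rw [hc']
      push_cast
      rw [ZMod.natCast_zmod_val, mul_inv_cancel₀ hN]
    set t : ℤ := (j.val : ℤ) - 1 with ht
    have htj : ((t : ℤ) : ZMod q) = j - 1 := by
      rw [ht]
      push_cast
      rw [ZMod.natCast_zmod_val]
    let g : SL(2, ℤ) := ⟨!![1, t; (N : ℤ) * c', 1 + (N : ℤ) * c' * t], by
      rw [Matrix.det_fin_two_of]; ring⟩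
    have hg : g ∈ Gamma0 N := t2c_mem_of_dvd (by
      show (N : ℤ) ∣ (N : ℤ) * c'
      exact dvd_mul_right _ _)
    refine ⟨⟨g, hg⟩, ?_⟩
    show t2c_act g (∞ : OnePoint (ZMod q)) = (j : OnePoint (ZMod q))
    rw [t2c_act, OnePoint.smul_infty_eq_ite, redMatrix_apply_one_zero, redMatrix_apply_zero_zero]
    have h10 : ((g 1 0 : ℤ) : ZMod q) = 1 := hc1
    have h11 : ((g 1 1 : ℤ) : ZMod q) = j := by
      show (((1 + (N : ℤ) * c' * t : ℤ)) : ZMod q) = j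
      have : ((1 + (N : ℤ) * c' * t : ℤ) : ZMod q) = 1 + (((N : ℤ) * c' : ℤ) : ZMod q) * (t : ZMod q) := by
        push_cast; ring
      rw [this, hc1, htj]
      ring
    rw [h10, h11, if_neg one_ne_zero, div_one]

theorem lrm_exists_rep_zero (N : ℕ) (hqN : ¬ q ∣ N) (x : OnePoint (ZMod q)) :
    ∃ γ : Gamma0 N, t2c_act (γ : SL(2, ℤ)) ((0 : ZMod q) : OnePoint (ZMod q)) = x := by
  induction x using OnePoint.rec with
  | infty =>
    have hcop : Nat.Coprime q N := (Nat.Prime.coprime_iff_not_dvd Fact.out).mpr hqN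
    have hb := Int.gcd_eq_gcd_ab (q : ℤ) (N : ℤ)
    have hg1 : Int.gcd (q : ℤ) (N : ℤ) = 1 := by
      rw [Int.gcd_natCast_natCast]; exact hcop
    rw [hg1] at hb
    set u := Int.gcdA (q : ℤ) (N : ℤ)
    set v := Int.gcdB (q : ℤ) (N : ℤ)
    let g : SL(2, ℤ) := ⟨!![(q : ℤ), -v; (N : ℤ), u], by
      rw [Matrix.det_fin_two_of]; push_cast at hb; linarith⟩
    have hg : g ∈ Gamma0 N := t2c_mem_of_dvd (by
      show (N : ℤ) ∣ (N : ℤ)
      exact dvd_refl _)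
    refine ⟨⟨g, hg⟩, ?_⟩
    show t2c_act g ((0 : ZMod q) : OnePoint (ZMod q)) = ∞
    rw [t2c_act, OnePoint.smul_some_eq_ite, redMatrix_apply_one_zero, redMatrix_apply_one_one,
      mul_zero, zero_add]
    have h00 : ((g 0 0 : ℤ) : ZMod q) = 0 := by
      show (((q : ℤ)) : ZMod q) = 0
      simp
    rw [if_pos h00]
  | coe j =>
    let g : SL(2, ℤ) := ⟨!![1, (j.val : ℤ); 0, 1], by
      rw [Matrix.det_fin_two_of]; ring⟩
    have hg : g ∈ Gamma0 N := t2c_mem_of_dvd (by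
      show (N : ℤ) ∣ (0 : ℤ)
      exact dvd_zero _)
    refine ⟨⟨g, hg⟩, ?_⟩
    show t2c_act g ((0 : ZMod q) : OnePoint (ZMod q)) = (j : OnePoint (ZMod q))
    rw [t2c_act, OnePoint.smul_some_eq_ite, redMatrix_apply_one_zero, redMatrix_apply_one_one,
      redMatrix_apply_zero_zero, redMatrix_apply_zero_one, mul_zero, zero_add, mul_zero, zero_add]
    have h00 : ((g 0 0 : ℤ) : ZMod q) = 1 := by
      show (((1 : ℤ)) : ZMod q) = 1
      simp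
    have h01 : ((g 0 1 : ℤ) : ZMod q) = j := by
      show ((((j.val : ℤ))) : ZMod q) = j
      push_cast
      rw [ZMod.natCast_zmod_val]
    rw [h00, h01, if_neg one_ne_zero, div_one]


/-! ### The two maps `Γ₀(Nq) → Γ₀(N)` -/

theorem lrm_le (N q : ℕ) : Gamma0 (N * q) ≤ Gamma0 N := by
  intro g hg
  have h1 : ((N * q : ℕ) : ℤ) ∣ g 1 0 := t2c_dvd_of_mem hg
  refine t2c_mem_of_dvd (dvd_trans ?_ h1)
  push_cast
  exact dvd_mul_right _ _

omit [Fact q.Prime] in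
theorem lrm_dvd_q (N : ℕ) (g : Gamma0 (N * q)) : (q : ℤ) ∣ (g : SL(2, ℤ)) 1 0 := by
  have h1 : ((N * q : ℕ) : ℤ) ∣ (g : SL(2, ℤ)) 1 0 := t2c_dvd_of_mem g.2
  refine dvd_trans ?_ h1
  push_cast
  exact dvd_mul_left _ _

theorem lrm_mem_of_dvd_dvd (hqN : ¬ q ∣ N) {g : SL(2, ℤ)} (h1 : (N : ℤ) ∣ g 1 0)
    (h2 : (q : ℤ) ∣ g 1 0) : g ∈ Gamma0 (N * q) := by
  refine t2c_mem_of_dvd ?_
  push_cast
  have hcop : IsCoprime (N : ℤ) (q : ℤ) :=
    Nat.isCoprime_iff_coprime.mpr ((Nat.Prime.coprime_iff_not_dvd Fact.out).mpr hqN).symm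
  exact hcop.mul_dvd h1 h2

/-- the inclusion `Γ₀(Nq) → Γ₀(N)` -/
def lrm_incl (N q : ℕ) : Gamma0 (N * q) →* Gamma0 N := Subgroup.inclusion (lrm_le N q)

omit [Fact q.Prime] in
theorem lrm_incl_coe (g : Gamma0 (N * q)) : ((lrm_incl N q g : Gamma0 N) : SL(2, ℤ)) = g := rfl

/-- `Γ₀(Nq) → Stab(∞)` -/
def lrm_toStabInf (hqN : ¬ q ∣ N) : Gamma0 (N * q) →* lrt_stab (lrm_data hqN) ∞ :=
  (lrm_incl N q).codRestrict _ fun g => (lrm_act_infty _).mpr (lrm_dvd_q N g)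

/-- `Stab(∞) → Γ₀(Nq)` -/
def lrm_gamInf (hqN : ¬ q ∣ N) : lrt_stab (lrm_data hqN) ∞ →* Gamma0 (N * q) :=
  ((Gamma0 N).subtype.comp (lrt_stab (lrm_data hqN) ∞).subtype).codRestrict _ fun g =>
    lrm_mem_of_dvd_dvd hqN (t2c_dvd_of_mem (g : Gamma0 N).2) ((lrm_act_infty _).mp g.2)

/-- conjugation by `diag(q, 1)`: `[[a, b], [c, d]] ↦ [[a, q b], [c / q, d]]`, `Γ₀(Nq) → Γ₀(N)` -/
def lrm_beta (hqN : ¬ q ∣ N) : Gamma0 (N * q) →* Gamma0 N :=
  (lrt_beta (lrm_data hqN) ∞).comp (lrm_toStabInf hqN)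

theorem lrm_beta_entries (hqN : ¬ q ∣ N) (g : Gamma0 (N * q)) :
    ((lrm_beta hqN g : Gamma0 N) : SL(2, ℤ)) 0 0 = (g : SL(2, ℤ)) 0 0 ∧
    ((lrm_beta hqN g : Gamma0 N) : SL(2, ℤ)) 0 1 = q * (g : SL(2, ℤ)) 0 1 ∧
    (q : ℤ) * ((lrm_beta hqN g : Gamma0 N) : SL(2, ℤ)) 1 0 = (g : SL(2, ℤ)) 1 0 ∧
    ((lrm_beta hqN g : Gamma0 N) : SL(2, ℤ)) 1 1 = (g : SL(2, ℤ)) 1 1 := by
  have h := t2c_coc_spec hqN ∞ (lrm_incl N q g)
  rw [(show t2c_act ((lrm_incl N q g : Gamma0 N) : SL(2, ℤ)) (∞ : OnePoint (ZMod q)) = ∞ from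
    (lrm_act_infty _).mpr (lrm_dvd_q N g))] at h
  exact lrm_entries_infty h

/-- `Stab(0) → Γ₀(Nq)`, conjugation by `diag(1, q)`: `[[a, b], [c, d]] ↦ [[a, b / q], [q c, d]]` -/
def lrm_gamZero (hqN : ¬ q ∣ N) :
    lrt_stab (lrm_data hqN) ((0 : ZMod q) : OnePoint (ZMod q)) →* Gamma0 (N * q) :=
  ((Gamma0 N).subtype.comp (lrt_beta (lrm_data hqN) ((0 : ZMod q) : OnePoint (ZMod q)))).codRestrict _
    fun g => by
      have h := t2c_coc_spec hqN ((0 : ZMod q) : OnePoint (ZMod q)) (g : Gamma0 N)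
      rw [(show t2c_act ((g : Gamma0 N) : SL(2, ℤ)) ((0 : ZMod q) : OnePoint (ZMod q)) = _ from g.2)] at h
      have e := (lrm_entries_zero h).2.2.1
      refine lrm_mem_of_dvd_dvd hqN (t2c_dvd_of_mem (t2c_coc hqN _ (g : Gamma0 N)).2) ?_
      show (q : ℤ) ∣ ((t2c_coc hqN _ (g : Gamma0 N) : Gamma0 N) : SL(2, ℤ)) 1 0
      rw [e]
      exact dvd_mul_right _ _

theorem lrm_gamZero_coe (hqN : ¬ q ∣ N)
    (g : lrt_stab (lrm_data hqN) ((0 : ZMod q) : OnePoint (ZMod q))) :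
    ((lrm_gamZero hqN g : Gamma0 (N * q)) : SL(2, ℤ)) =
      ((t2c_coc hqN ((0 : ZMod q) : OnePoint (ZMod q)) (g : Gamma0 N) : Gamma0 N) : SL(2, ℤ)) := rfl

theorem lrm_gamZero_entries (hqN : ¬ q ∣ N)
    (g : lrt_stab (lrm_data hqN) ((0 : ZMod q) : OnePoint (ZMod q))) :
    ((lrm_gamZero hqN g : Gamma0 (N * q)) : SL(2, ℤ)) 0 0 = ((g : Gamma0 N) : SL(2, ℤ)) 0 0 ∧
    (q : ℤ) * ((lrm_gamZero hqN g : Gamma0 (N * q)) : SL(2, ℤ)) 0 1 = ((g : Gamma0 N) : SL(2, ℤ)) 0 1 ∧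
    ((lrm_gamZero hqN g : Gamma0 (N * q)) : SL(2, ℤ)) 1 0 = q * ((g : Gamma0 N) : SL(2, ℤ)) 1 0 ∧
    ((lrm_gamZero hqN g : Gamma0 (N * q)) : SL(2, ℤ)) 1 1 = ((g : Gamma0 N) : SL(2, ℤ)) 1 1 := by
  have h := t2c_coc_spec hqN ((0 : ZMod q) : OnePoint (ZMod q)) (g : Gamma0 N)
  rw [(show t2c_act ((g : Gamma0 N) : SL(2, ℤ)) ((0 : ZMod q) : OnePoint (ZMod q)) = _ from g.2)] at h
  exact lrm_entries_zero h


/-! ### The four maps and the matrix `i† i` -/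

variable {A : Type*} [AddCommGroup A]

/-- pull-back of additive characters along a group homomorphism -/
def lrm_pull {H K : Type*} [Group H] [Group K] (f : H →* K) :
    (Additive K →+ A) →+ (Additive H →+ A) where
  toFun χ := χ.comp (MonoidHom.toAdditive f)
  map_zero' := rfl
  map_add' _ _ := rfl

theorem lrm_pull_ev {H K : Type*} [Group H] [Group K] (f : H →* K) (χ : Additive K →+ A) (h : H) :
    lrt_ev (lrm_pull f χ) h = lrt_ev χ (f h) := rfl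

theorem lrm_pull_comp {H K L : Type*} [Group H] [Group K] [Group L] (f : H →* K) (g : K →* L)
    (χ : Additive L →+ A) : lrm_pull f (lrm_pull g χ) = lrm_pull (g.comp f) χ := rfl

theorem lrm_T_eq (hqN : ¬ q ∣ N) (χ : Additive (Gamma0 N) →+ A) :
    lrt_T (lrm_data hqN) χ = t2c_Tadd hqN χ := by
  refine lrt_ext fun g => ?_
  rfl

/-- representatives for the base point `∞` -/
def lrm_rInf (hqN : ¬ q ∣ N) (x : OnePoint (ZMod q)) : Gamma0 N :=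
  (lrm_exists_rep_infty N hqN x).choose

theorem lrm_rInf_spec (hqN : ¬ q ∣ N) (x : OnePoint (ZMod q)) :
    (lrm_data hqN).act (lrm_rInf hqN x) ∞ = x := (lrm_exists_rep_infty N hqN x).choose_spec

/-- representatives for the base point `0` -/
def lrm_rZero (hqN : ¬ q ∣ N) (x : OnePoint (ZMod q)) : Gamma0 N :=
  (lrm_exists_rep_zero N hqN x).choose

theorem lrm_rZero_spec (hqN : ¬ q ∣ N) (x : OnePoint (ZMod q)) :
    (lrm_data hqN).act (lrm_rZero hqN x) ((0 : ZMod q) : OnePoint (ZMod q)) = x :=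
  (lrm_exists_rep_zero N hqN x).choose_spec

/-- `A^*` : restriction along `Γ₀(Nq) ⊆ Γ₀(N)` -/
def lrm_resA (N q : ℕ) : (Additive (Gamma0 N) →+ A) →+ (Additive (Gamma0 (N * q)) →+ A) :=
  lrm_pull (lrm_incl N q)

/-- `B^*` : pull-back along `β = Ad diag(q, 1) : Γ₀(Nq) → Γ₀(N)` -/
def lrm_resB (hqN : ¬ q ∣ N) : (Additive (Gamma0 N) →+ A) →+ (Additive (Gamma0 (N * q)) →+ A) :=
  lrm_pull (lrm_beta hqN)

/-- `A_*` : the transfer along `Γ₀(Nq) ⊆ Γ₀(N)` -/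
def lrm_corA (hqN : ¬ q ∣ N) : (Additive (Gamma0 (N * q)) →+ A) →+ (Additive (Gamma0 N) →+ A) :=
  (lrt_cor (lrm_data hqN) ∞ (lrm_rInf hqN) (lrm_rInf_spec hqN)).comp (lrm_pull (lrm_gamInf hqN))

/-- `B_*` : the transfer along `β : Γ₀(Nq) → Γ₀(N)` -/
def lrm_corB (hqN : ¬ q ∣ N) : (Additive (Gamma0 (N * q)) →+ A) →+ (Additive (Gamma0 N) →+ A) :=
  (lrt_cor (lrm_data hqN) ((0 : ZMod q) : OnePoint (ZMod q)) (lrm_rZero hqN)
    (lrm_rZero_spec hqN)).comp (lrm_pull (lrm_gamZero hqN))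

theorem lrm_card : Fintype.card (OnePoint (ZMod q)) = q + 1 := by
  rw [show Fintype.card (OnePoint (ZMod q)) = Fintype.card (Option (ZMod q)) from rfl,
    Fintype.card_option, ZMod.card]

/-- `A_* A^* = q + 1` -/
theorem lrm_corA_resA (hqN : ¬ q ∣ N) (χ : Additive (Gamma0 N) →+ A) :
    lrm_corA hqN (lrm_resA N q χ) = (q + 1) • χ := by
  have h : lrm_pull (lrm_gamInf hqN) (lrm_resA N q χ) =
      χ.comp (MonoidHom.toAdditive (lrt_stab (lrm_data hqN) ∞).subtype) := rfl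
  rw [lrm_corA, AddMonoidHom.comp_apply, h, lrt_cor_res, lrm_card]

/-- `A_* B^* = T_q` -/
theorem lrm_corA_resB (hqN : ¬ q ∣ N) (χ : Additive (Gamma0 N) →+ A) :
    lrm_corA hqN (lrm_resB hqN χ) = t2c_Tadd hqN χ := by
  have h : lrm_pull (lrm_gamInf hqN) (lrm_resB hqN χ) =
      χ.comp (MonoidHom.toAdditive (lrt_beta (lrm_data hqN) ∞)) := rfl
  rw [lrm_corA, AddMonoidHom.comp_apply, h, ← lrt_T_eq_cor, lrm_T_eq]

/-- `B_* A^* = T_q` -/
theorem lrm_corB_resA (hqN : ¬ q ∣ N) (χ : Additive (Gamma0 N) →+ A) :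
    lrm_corB hqN (lrm_resA N q χ) = t2c_Tadd hqN χ := by
  have h : lrm_pull (lrm_gamZero hqN) (lrm_resA N q χ) =
      χ.comp (MonoidHom.toAdditive
        (lrt_beta (lrm_data hqN) ((0 : ZMod q) : OnePoint (ZMod q)))) := rfl
  rw [lrm_corB, AddMonoidHom.comp_apply, h, ← lrt_T_eq_cor, lrm_T_eq]

theorem lrm_beta_gamZero (hqN : ¬ q ∣ N)
    (g : lrt_stab (lrm_data hqN) ((0 : ZMod q) : OnePoint (ZMod q))) :
    lrm_beta hqN (lrm_gamZero hqN g) = (g : Gamma0 N) := by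
  have hq : (q : ℤ) ≠ 0 := by exact_mod_cast (Fact.out : q.Prime).ne_zero
  obtain ⟨a1, a2, a3, a4⟩ := lrm_beta_entries hqN (lrm_gamZero hqN g)
  obtain ⟨b1, b2, b3, b4⟩ := lrm_gamZero_entries hqN g
  apply Subtype.ext
  apply Subtype.ext
  ext i j
  fin_cases i <;> fin_cases j
  · exact a1.trans b1
  · exact a2.trans b2
  · exact mul_left_cancel₀ hq (a3.trans b3)
  · exact a4.trans b4

/-- `B_* B^* = q + 1` -/
theorem lrm_corB_resB (hqN : ¬ q ∣ N) (χ : Additive (Gamma0 N) →+ A) :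
    lrm_corB hqN (lrm_resB hqN χ) = (q + 1) • χ := by
  have h : lrm_pull (lrm_gamZero hqN) (lrm_resB hqN χ) =
      χ.comp (MonoidHom.toAdditive
        (lrt_stab (lrm_data hqN) ((0 : ZMod q) : OnePoint (ZMod q))).subtype) := by
    refine lrt_ext fun g => ?_
    show lrt_ev χ (lrm_beta hqN (lrm_gamZero hqN g)) = lrt_ev χ (g : Gamma0 N)
    rw [lrm_beta_gamZero]
  rw [lrm_corB, AddMonoidHom.comp_apply, h, lrt_cor_res, lrm_card]

end Fermat.Agent.LR
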