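/-
LR / node [MTX], part 3: the four maps preserve the characters killing the parabolic and the elliptic
elements, hence descend to `H(M) = Γ₀(M)^ab / (par, ell)` (`gh_H`), and the matrix identity on
homology.

* `lrh_cor_kills` (abstract): the transfer `lrt_cor` preserves `kills P` for a class `P` of elements
  closed under powers and conjugation;
* `lrh_resA_mem`, `lrh_resB_mem`, `lrh_corA_mem`, `lrh_corB_mem` : preservation of `gh_parEllHoms`;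
* homology maps `lrh_A, lrh_B : H(Nq) →+ H(N)` (induced by the inclusion and by `β = Ad diag(q,1)`),
  `lrh_At, lrh_Bt : H(N) →+ H(Nq)` (transfers);
* `lrh_A_At, lrh_B_Bt : … = (q + 1) •`, `lrh_B_At, lrh_A_Bt : … = t2e_TH hqN` (the Hecke operator
  `T_q` on `H(N)` of `JT3/T2/ParEll.lean`);
* hence for `i = (ψ₁, ψ₂) ↦ ψ₁ ∘ A + ψ₂ ∘ B`, `i† = φ ↦ (φ ∘ At, φ ∘ Bt)` on `Hom(H(·), M)`:
  `i† i = [[q + 1, T_q], [T_q, q + 1]]` (`lrh_matrix`).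
Prefix `lrh_`.
-/
import Mathlib
import Fermat.Agent.JT3.T2.ParEll
import Fermat.Agent.LR.MTX.Level

set_option autoImplicit false

noncomputable section

open CongruenceSubgroup Matrix.SpecialLinearGroup
open P2MW.S_ModularForm_heckeT_slash_eq_self_of_mem_Gamma0.ModularForm.HeckeSlashInvariance
open scoped MatrixGroups OnePoint
open Fermat.Agent.JT3

namespace Fermat.Agent.LR

/-! ### Abstract: the transfer preserves `kills P` -/

section abstract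

variable {G : Type*} {X : Type*} {A : Type*} [Group G] [AddCommGroup A]
variable (D : lrt_Data G X)

theorem lrh_perm_pow (g : G) (i : ℕ) (x : X) : ((lrt_perm D g) ^ i) x = D.act (g ^ i) x := by
  induction i with
  | zero => simp [D.act_one]
  | succ i ih =>
    rw [pow_succ', Equiv.Perm.mul_apply, ih, lrt_perm_apply, ← D.act_mul, ← pow_succ]

variable (x₀ : X) (r : X → G) (hr : ∀ x, D.act (r x) x₀ = x)

theorem lrh_a_pow (φ : Additive (lrt_stab D x₀) →+ A) (x : X) (g : G) (n : ℕ) :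
    lrt_ev φ (lrt_a D x₀ r hr x (g ^ n)) =
      ∑ i ∈ Finset.range n, lrt_ev φ (lrt_a D x₀ r hr (((lrt_perm D g) ^ i) x) g) := by
  induction n with
  | zero => simp [lrt_a_one, lrt_ev_one]
  | succ n ih =>
    rw [pow_succ, lrt_a_mul, lrt_ev_mul, ih, Finset.sum_range_succ, lrh_perm_pow]

theorem lrh_sum_eq_zero_of_orbits [Fintype X] (σ : Equiv.Perm X) (f : X → A)
    (h : ∀ x : X, ∀ n : ℕ, 0 < n → (σ ^ n) x = x →
      ∑ i ∈ Finset.range n, f ((σ ^ i) x) = 0) : ∑ x, f x = 0 := by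
  have h1 := t2e_prod_eq_one_of_orbits σ (fun x => Multiplicative.ofAdd (f x)) (by
    intro x n hn hx
    rw [← ofAdd_sum, h x n hn hx]
    rfl)
  rw [← ofAdd_sum] at h1
  exact h1

theorem lrh_cor_kills [Fintype X] (P : G → Prop) (hpow : ∀ g (n : ℕ), P g → P (g ^ n))
    (hconj : ∀ g h, P g → P (h * g * h⁻¹)) (φ : Additive (lrt_stab D x₀) →+ A)
    (hφ : ∀ s : lrt_stab D x₀, P (s : G) → lrt_ev φ s = 0) (g : G) (hg : P g) :
    lrt_ev (lrt_cor D x₀ r hr φ) g = 0 := by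
  rw [lrt_cor_ev]
  refine lrh_sum_eq_zero_of_orbits (lrt_perm D g) (fun x => lrt_ev φ (lrt_a D x₀ r hr x g)) ?_
  intro x n _ hx
  rw [← lrh_a_pow]
  apply hφ
  rw [lrt_a_coe, ← lrh_perm_pow, hx]
  exact hconj _ _ (hpow g n hg)

/-- naturality of the transfer in the target -/
theorem lrh_cor_comp [Fintype X] {A' : Type*} [AddCommGroup A'] (f : A →+ A')
    (φ : Additive (lrt_stab D x₀) →+ A) :
    lrt_cor D x₀ r hr (f.comp φ) = f.comp (lrt_cor D x₀ r hr φ) := by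
  refine lrt_ext fun g => ?_
  rw [lrt_cor_ev]
  show _ = f (lrt_ev (lrt_cor D x₀ r hr φ) g)
  rw [lrt_cor_ev, map_sum]
  rfl

end abstract

variable {N : ℕ} {q : ℕ} [Fact q.Prime] {A : Type*} [AddCommGroup A]

/-! ### Traces -/

theorem lrh_parEll_conj (γ h : Gamma0 N) (hγ : gh_IsParEll N γ) :
    gh_IsParEll N (h * γ * h⁻¹) := by
  unfold gh_IsParEll at hγ ⊢
  have : (((h * γ * h⁻¹ : Gamma0 N) : SL(2, ℤ)) : Matrix (Fin 2) (Fin 2) ℤ).trace =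
      (((γ : Gamma0 N) : SL(2, ℤ)) : Matrix (Fin 2) (Fin 2) ℤ).trace := by
    rw [Subgroup.coe_mul, Subgroup.coe_mul, Subgroup.coe_inv, Matrix.SpecialLinearGroup.coe_mul,
      Matrix.SpecialLinearGroup.coe_mul, Matrix.trace_mul_cycle,
      ← Matrix.SpecialLinearGroup.coe_mul, inv_mul_cancel, Matrix.SpecialLinearGroup.coe_one,
      one_mul]
  rw [this]
  exact hγ

theorem lrh_trace_beta (hqN : ¬ q ∣ N) (g : Gamma0 (N * q)) :
    (((lrm_beta hqN g : Gamma0 N) : SL(2, ℤ)) : Matrix (Fin 2) (Fin 2) ℤ).trace =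
      (((g : Gamma0 (N * q)) : SL(2, ℤ)) : Matrix (Fin 2) (Fin 2) ℤ).trace := by
  obtain ⟨a1, -, -, a4⟩ := lrm_beta_entries hqN g
  rw [Matrix.trace_fin_two, Matrix.trace_fin_two]
  exact congrArg₂ (· + ·) a1 a4

theorem lrh_trace_gamZero (hqN : ¬ q ∣ N)
    (g : lrt_stab (lrm_data hqN) ((0 : ZMod q) : OnePoint (ZMod q))) :
    (((lrm_gamZero hqN g : Gamma0 (N * q)) : SL(2, ℤ)) : Matrix (Fin 2) (Fin 2) ℤ).trace =
      ((((g : Gamma0 N)) : SL(2, ℤ)) : Matrix (Fin 2) (Fin 2) ℤ).trace := by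
  obtain ⟨a1, -, -, a4⟩ := lrm_gamZero_entries hqN g
  rw [Matrix.trace_fin_two, Matrix.trace_fin_two]
  exact congrArg₂ (· + ·) a1 a4

/-! ### Preservation of `gh_parEllHoms` -/

omit [Fact q.Prime] in
theorem lrh_resA_mem {χ : Additive (Gamma0 N) →+ A} (hχ : χ ∈ gh_parEllHoms N A) :
    lrm_resA N q χ ∈ gh_parEllHoms (N * q) A := by
  intro γ hγ
  exact hχ (lrm_incl N q γ) hγ

theorem lrh_resB_mem (hqN : ¬ q ∣ N) {χ : Additive (Gamma0 N) →+ A}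
    (hχ : χ ∈ gh_parEllHoms N A) : lrm_resB hqN χ ∈ gh_parEllHoms (N * q) A := by
  intro γ hγ
  refine hχ (lrm_beta hqN γ) ?_
  unfold gh_IsParEll at hγ ⊢
  rw [lrh_trace_beta]
  exact hγ

theorem lrh_corA_mem (hqN : ¬ q ∣ N) {φ : Additive (Gamma0 (N * q)) →+ A}
    (hφ : φ ∈ gh_parEllHoms (N * q) A) : lrm_corA hqN φ ∈ gh_parEllHoms N A := by
  intro γ hγ
  refine lrh_cor_kills (lrm_data hqN) ∞ (lrm_rInf hqN) (lrm_rInf_spec hqN) (gh_IsParEll N)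
    (fun g n hg => t2e_parEll_pow g hg n) (fun g h hg => lrh_parEll_conj g h hg)
    (lrm_pull (lrm_gamInf hqN) φ) ?_ γ hγ
  intro s hs
  exact hφ (lrm_gamInf hqN s) hs

theorem lrh_corB_mem (hqN : ¬ q ∣ N) {φ : Additive (Gamma0 (N * q)) →+ A}
    (hφ : φ ∈ gh_parEllHoms (N * q) A) : lrm_corB hqN φ ∈ gh_parEllHoms N A := by
  intro γ hγ
  refine lrh_cor_kills (lrm_data hqN) ((0 : ZMod q) : OnePoint (ZMod q)) (lrm_rZero hqN)
    (lrm_rZero_spec hqN) (gh_IsParEll N)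
    (fun g n hg => t2e_parEll_pow g hg n) (fun g h hg => lrh_parEll_conj g h hg)
    (lrm_pull (lrm_gamZero hqN) φ) ?_ γ hγ
  intro s hs
  refine hφ (lrm_gamZero hqN s) ?_
  unfold gh_IsParEll at hs ⊢
  rw [lrh_trace_gamZero]
  exact hs


/-! ### Naturality in the target -/

theorem lrh_corA_comp (hqN : ¬ q ∣ N) {A' : Type*} [AddCommGroup A'] (f : A →+ A')
    (φ : Additive (Gamma0 (N * q)) →+ A) :
    lrm_corA hqN (f.comp φ) = f.comp (lrm_corA hqN φ) := by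
  have h : lrm_pull (lrm_gamInf hqN) (f.comp φ) = f.comp (lrm_pull (lrm_gamInf hqN) φ) := rfl
  show lrt_cor (lrm_data hqN) ∞ (lrm_rInf hqN) (lrm_rInf_spec hqN)
      (lrm_pull (lrm_gamInf hqN) (f.comp φ)) =
    f.comp (lrt_cor (lrm_data hqN) ∞ (lrm_rInf hqN) (lrm_rInf_spec hqN)
      (lrm_pull (lrm_gamInf hqN) φ))
  rw [h, lrh_cor_comp]

theorem lrh_corB_comp (hqN : ¬ q ∣ N) {A' : Type*} [AddCommGroup A'] (f : A →+ A')
    (φ : Additive (Gamma0 (N * q)) →+ A) :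
    lrm_corB hqN (f.comp φ) = f.comp (lrm_corB hqN φ) := by
  have h : lrm_pull (lrm_gamZero hqN) (f.comp φ) = f.comp (lrm_pull (lrm_gamZero hqN) φ) := rfl
  show lrt_cor (lrm_data hqN) ((0 : ZMod q) : OnePoint (ZMod q)) (lrm_rZero hqN) (lrm_rZero_spec hqN)
      (lrm_pull (lrm_gamZero hqN) (f.comp φ)) =
    f.comp (lrt_cor (lrm_data hqN) ((0 : ZMod q) : OnePoint (ZMod q)) (lrm_rZero hqN)
      (lrm_rZero_spec hqN) (lrm_pull (lrm_gamZero hqN) φ))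
  rw [h, lrh_cor_comp]

/-! ### The maps on homology -/

theorem lrh_mk_mem (M : ℕ) : gh_mk M ∈ gh_parEllHoms M (gh_H M) :=
  fun γ hγ => gh_mk_parEll M γ hγ

/-- `A : H(Nq) → H(N)`, induced by the inclusion `Γ₀(Nq) ⊆ Γ₀(N)` -/
def lrh_A (N q : ℕ) : gh_H (N * q) →+ gh_H N :=
  gh_lift (lrm_resA N q (gh_mk N)) (fun γ hγ => lrh_resA_mem (lrh_mk_mem N) γ hγ)

/-- `B : H(Nq) → H(N)`, induced by `β = Ad diag(q, 1) : Γ₀(Nq) → Γ₀(N)` -/
def lrh_B (hqN : ¬ q ∣ N) : gh_H (N * q) →+ gh_H N :=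
  gh_lift (lrm_resB hqN (gh_mk N)) (fun γ hγ => lrh_resB_mem hqN (lrh_mk_mem N) γ hγ)

/-- `Aᵗ : H(N) → H(Nq)`, the transfer along the inclusion -/
def lrh_At (hqN : ¬ q ∣ N) : gh_H N →+ gh_H (N * q) :=
  gh_lift (lrm_corA hqN (gh_mk (N * q)))
    (fun γ hγ => lrh_corA_mem hqN (lrh_mk_mem (N * q)) γ hγ)

/-- `Bᵗ : H(N) → H(Nq)`, the transfer along `β` -/
def lrh_Bt (hqN : ¬ q ∣ N) : gh_H N →+ gh_H (N * q) :=
  gh_lift (lrm_corB hqN (gh_mk (N * q)))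
    (fun γ hγ => lrh_corB_mem hqN (lrh_mk_mem (N * q)) γ hγ)

omit [Fact q.Prime] in
theorem lrh_A_comp_mk (N q : ℕ) : (lrh_A N q).comp (gh_mk (N * q)) = lrm_resA N q (gh_mk N) := by
  refine AddMonoidHom.ext fun x => ?_
  rw [AddMonoidHom.comp_apply, lrh_A, gh_lift_mk]

theorem lrh_B_comp_mk (hqN : ¬ q ∣ N) :
    (lrh_B hqN).comp (gh_mk (N * q)) = lrm_resB hqN (gh_mk N) := by
  refine AddMonoidHom.ext fun x => ?_
  rw [AddMonoidHom.comp_apply, lrh_B, gh_lift_mk]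

theorem lrh_At_comp_mk (hqN : ¬ q ∣ N) :
    (lrh_At hqN).comp (gh_mk N) = lrm_corA hqN (gh_mk (N * q)) := by
  refine AddMonoidHom.ext fun x => ?_
  rw [AddMonoidHom.comp_apply, lrh_At, gh_lift_mk]

theorem lrh_Bt_comp_mk (hqN : ¬ q ∣ N) :
    (lrh_Bt hqN).comp (gh_mk N) = lrm_corB hqN (gh_mk (N * q)) := by
  refine AddMonoidHom.ext fun x => ?_
  rw [AddMonoidHom.comp_apply, lrh_Bt, gh_lift_mk]

theorem lrh_TH_comp_mk (hqN : ¬ q ∣ N) :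
    (t2e_TH hqN).comp (gh_mk N) = t2c_Tadd hqN (gh_mk N) := by
  refine AddMonoidHom.ext fun x => ?_
  rw [AddMonoidHom.comp_apply, t2e_TH, gh_lift_mk]

omit [Fact q.Prime] in
/-- characters of `Γ₀(M)` through `H(M)`: compatibility of pull-backs -/
theorem lrh_pull_A (ψ : gh_H N →+ A) :
    (ψ.comp (lrh_A N q)).comp (gh_mk (N * q)) = lrm_resA N q (ψ.comp (gh_mk N)) := by
  rw [AddMonoidHom.comp_assoc, lrh_A_comp_mk]
  rfl

theorem lrh_pull_B (hqN : ¬ q ∣ N) (ψ : gh_H N →+ A) :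
    (ψ.comp (lrh_B hqN)).comp (gh_mk (N * q)) = lrm_resB hqN (ψ.comp (gh_mk N)) := by
  rw [AddMonoidHom.comp_assoc, lrh_B_comp_mk]
  rfl

theorem lrh_pull_At (hqN : ¬ q ∣ N) (φ : gh_H (N * q) →+ A) :
    (φ.comp (lrh_At hqN)).comp (gh_mk N) = lrm_corA hqN (φ.comp (gh_mk (N * q))) := by
  rw [AddMonoidHom.comp_assoc, lrh_At_comp_mk, lrh_corA_comp]

theorem lrh_pull_Bt (hqN : ¬ q ∣ N) (φ : gh_H (N * q) →+ A) :
    (φ.comp (lrh_Bt hqN)).comp (gh_mk N) = lrm_corB hqN (φ.comp (gh_mk (N * q))) := by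
  rw [AddMonoidHom.comp_assoc, lrh_Bt_comp_mk, lrh_corB_comp]

theorem lrh_comp_mk_injective {M : ℕ} {ψ ψ' : gh_H M →+ A}
    (h : ψ.comp (gh_mk M) = ψ'.comp (gh_mk M)) : ψ = ψ' :=
  gh_hom_ext fun x => DFunLike.congr_fun h x

/-- `A ∘ Aᵗ = q + 1` on `H(N)` -/
theorem lrh_A_At (hqN : ¬ q ∣ N) :
    (lrh_A N q).comp (lrh_At hqN) = (q + 1) • AddMonoidHom.id (gh_H N) := by
  apply lrh_comp_mk_injective
  rw [lrh_pull_At, lrh_A_comp_mk, lrm_corA_resA]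
  rfl

/-- `B ∘ Bᵗ = q + 1` on `H(N)` -/
theorem lrh_B_Bt (hqN : ¬ q ∣ N) :
    (lrh_B hqN).comp (lrh_Bt hqN) = (q + 1) • AddMonoidHom.id (gh_H N) := by
  apply lrh_comp_mk_injective
  rw [lrh_pull_Bt, lrh_B_comp_mk, lrm_corB_resB]
  rfl

/-- `B ∘ Aᵗ = T_q` on `H(N)` -/
theorem lrh_B_At (hqN : ¬ q ∣ N) : (lrh_B hqN).comp (lrh_At hqN) = t2e_TH hqN := by
  apply lrh_comp_mk_injective
  rw [lrh_pull_At, lrh_B_comp_mk, lrm_corA_resB, lrh_TH_comp_mk]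

/-- `A ∘ Bᵗ = T_q` on `H(N)` -/
theorem lrh_A_Bt (hqN : ¬ q ∣ N) : (lrh_A N q).comp (lrh_Bt hqN) = t2e_TH hqN := by
  apply lrh_comp_mk_injective
  rw [lrh_pull_Bt, lrh_A_comp_mk, lrm_corB_resA, lrh_TH_comp_mk]

/-! ### `i` and `i†` on `Hom(H(·), M)` -/

/-- `i (ψ₁, ψ₂) = ψ₁ ∘ A + ψ₂ ∘ B : Hom(H(N), M)² → Hom(H(Nq), M)` -/
def lrh_i (hqN : ¬ q ∣ N) (M : Type*) [AddCommGroup M] :
    (gh_H N →+ M) × (gh_H N →+ M) →+ (gh_H (N * q) →+ M) where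
  toFun ψ := ψ.1.comp (lrh_A N q) + ψ.2.comp (lrh_B hqN)
  map_zero' := by simp
  map_add' ψ ψ' := by
    refine AddMonoidHom.ext fun x => ?_
    simp only [Prod.fst_add, Prod.snd_add, AddMonoidHom.add_apply, AddMonoidHom.comp_apply]
    abel

/-- `i† φ = (φ ∘ Aᵗ, φ ∘ Bᵗ) : Hom(H(Nq), M) → Hom(H(N), M)²` -/
def lrh_idag (hqN : ¬ q ∣ N) (M : Type*) [AddCommGroup M] :
    (gh_H (N * q) →+ M) →+ (gh_H N →+ M) × (gh_H N →+ M) where
  toFun φ := (φ.comp (lrh_At hqN), φ.comp (lrh_Bt hqN))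
  map_zero' := by simp
  map_add' φ φ' := by
    refine Prod.ext ?_ ?_ <;> refine AddMonoidHom.ext fun x => ?_ <;> rfl

/-- **`i† i = [[q + 1, T_q], [T_q, q + 1]]`** on `Hom(H(N), M)²` -/
theorem lrh_matrix (hqN : ¬ q ∣ N) (M : Type*) [AddCommGroup M]
    (ψ : (gh_H N →+ M) × (gh_H N →+ M)) :
    lrh_idag hqN M (lrh_i hqN M ψ) =
      ((q + 1) • ψ.1 + ψ.2.comp (t2e_TH hqN), ψ.1.comp (t2e_TH hqN) + (q + 1) • ψ.2) := by
  have e1 : ∀ χ : gh_H N →+ M, (χ.comp (lrh_A N q)).comp (lrh_At hqN) = (q + 1) • χ := by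
    intro χ
    rw [AddMonoidHom.comp_assoc, lrh_A_At]
    refine AddMonoidHom.ext fun x => ?_
    simp
  have e2 : ∀ χ : gh_H N →+ M, (χ.comp (lrh_B hqN)).comp (lrh_Bt hqN) = (q + 1) • χ := by
    intro χ
    rw [AddMonoidHom.comp_assoc, lrh_B_Bt]
    refine AddMonoidHom.ext fun x => ?_
    simp
  have e3 : ∀ χ : gh_H N →+ M, (χ.comp (lrh_B hqN)).comp (lrh_At hqN) = χ.comp (t2e_TH hqN) := by
    intro χ
    rw [AddMonoidHom.comp_assoc, lrh_B_At]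
  have e4 : ∀ χ : gh_H N →+ M, (χ.comp (lrh_A N q)).comp (lrh_Bt hqN) = χ.comp (t2e_TH hqN) := by
    intro χ
    rw [AddMonoidHom.comp_assoc, lrh_A_Bt]
  refine Prod.ext ?_ ?_
  · show (ψ.1.comp (lrh_A N q) + ψ.2.comp (lrh_B hqN)).comp (lrh_At hqN) = _
    rw [AddMonoidHom.add_comp, e1, e3]
  · show (ψ.1.comp (lrh_A N q) + ψ.2.comp (lrh_B hqN)).comp (lrh_Bt hqN) = _
    rw [AddMonoidHom.add_comp, e4, e2]

end Fermat.Agent.LR
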