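/-
LR / node [MTX+], part 0 (abstract): comparison of two coset systems with source group `Γ₁` and
cocycle values in `Γ₂` (a two-group version of `t2k_prod_eq` of `JT3/T2/Comm.lean`), additively.
Prefix `lre_`.
-/
import Mathlib
import Fermat.Agent.LR.MTX.Transfer

set_option autoImplicit false

noncomputable section

namespace Fermat.Agent.LR

/-- **comparison of two coset systems**: if the representatives `r x` and `s (σ x)` are
`Γ₂`-equivalent and the cosets `Γ₂ s y` are pairwise distinct, the two sums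
`∑ₓ χ (cX x γ)` and `∑_y χ (cY y γ)` coincide (telescoping). -/
theorem lre_sum_eq {G Γ₁ Γ₂ : Type*} [Group G] [Group Γ₁] [Group Γ₂] (ι₁ : Γ₁ →* G) (ι₂ : Γ₂ →* G)
    {X Y A : Type*} [Fintype X] [Fintype Y] [AddCommGroup A]
    (r : X → G) (s : Y → G) (actX : Γ₁ → Equiv.Perm X) (actY : Γ₁ → Y → Y)
    (cX : X → Γ₁ → Γ₂) (cY : Y → Γ₁ → Γ₂)
    (hX : ∀ x γ, r x * ι₁ γ = ι₂ (cX x γ) * r (actX γ x))
    (hY : ∀ y γ, s y * ι₁ γ = ι₂ (cY y γ) * s (actY γ y))
    (hι : Function.Injective ι₂)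
    (hsep : ∀ y y' (δ : Γ₂), s y = ι₂ δ * s y' → y = y')
    (σ : X → Y) (hσ : Function.Bijective σ) (τ : X → Γ₂) (hτ : ∀ x, r x = ι₂ (τ x) * s (σ x))
    (χ : Additive Γ₂ →+ A) (γ : Γ₁) :
    ∑ x, lrt_ev χ (cX x γ) = ∑ y, lrt_ev χ (cY y γ) := by
  have key : ∀ x, σ (actX γ x) = actY γ (σ x) ∧
      cX x γ * τ (actX γ x) = τ x * cY (σ x) γ := by
    intro x
    have h1 : ι₂ (cX x γ * τ (actX γ x)) * s (σ (actX γ x)) =
        ι₂ (τ x * cY (σ x) γ) * s (actY γ (σ x)) := by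
      rw [map_mul, map_mul, mul_assoc, ← hτ, ← hX, hτ x, mul_assoc, hY, ← mul_assoc]
    have h2 : s (σ (actX γ x)) =
        ι₂ ((cX x γ * τ (actX γ x))⁻¹ * (τ x * cY (σ x) γ)) * s (actY γ (σ x)) := by
      rw [map_mul, map_inv, mul_assoc, ← h1, inv_mul_cancel_left]
    have h3 := hsep _ _ _ h2
    refine ⟨h3, ?_⟩
    rw [h3] at h1
    exact hι (mul_right_cancel h1)
  have hc : ∀ x, lrt_ev χ (cX x γ) =
      lrt_ev χ (τ x) + lrt_ev χ (cY (σ x) γ) - lrt_ev χ (τ (actX γ x)) := by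
    intro x
    have h := congrArg (lrt_ev χ) (key x).2
    rw [lrt_ev_mul, lrt_ev_mul] at h
    rw [← h]
    abel
  rw [Finset.sum_congr rfl fun x _ => hc x, Finset.sum_sub_distrib, Finset.sum_add_distrib,
    Equiv.sum_comp (actX γ) fun x => lrt_ev χ (τ x)]
  have h4 : ∑ x, lrt_ev χ (cY (σ x) γ) = ∑ y, lrt_ev χ (cY y γ) :=
    (Equiv.ofBijective σ hσ).sum_comp fun y => lrt_ev χ (cY y γ)
  rw [h4]
  abel

/-- injectivity of a matching from separation of the first system -/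
theorem lre_match_injective {G Γ₂ : Type*} [Group G] [Group Γ₂] (ι₂ : Γ₂ →* G)
    {X Y : Type*} (r : X → G) (s : Y → G)
    (hsep : ∀ x x' (δ : Γ₂), r x = ι₂ δ * r x' → x = x')
    (σ : X → Y) (τ : X → Γ₂) (hτ : ∀ x, r x = ι₂ (τ x) * s (σ x)) : Function.Injective σ := by
  intro x x' h
  apply hsep x x' (τ x * (τ x')⁻¹)
  rw [hτ x, hτ x', h, map_mul, map_inv, mul_assoc, inv_mul_cancel_left]

end Fermat.Agent.LR
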