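/-
LR / node [MTX+], part 1: the four maps of [MTX] are equivariant for the coset operators `T_l`
(`l` prime, `l ∤ N q`), levels `N` and `N q`:

* `lre_resA_T` : `A^* ∘ T_l = T_l ∘ A^*`;
* `lre_corA_T` : `T_l ∘ A_* = A_* ∘ T_l`;  `lre_corB_T` : `T_l ∘ B_* = B_* ∘ T_l`
  (both from the uniform `lre_cor_T`: two coset systems `S(x,y) = α_y ρ r_x`, `R(x,y) = ρ r_x α_y`
  with values in `Γ₀(Nq)`, compared by `lre_sum_eq`).
(`B^* ∘ T_l = T_l ∘ B^*` is in `EquivResB.lean`.)  Prefix `lre_`.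
-/
import Mathlib
import Fermat.Agent.JT3.T2.Comm
import Fermat.Agent.LR.MTX.Homology
import Fermat.Agent.LR.MTX.EquivAbs

set_option autoImplicit false

noncomputable section

open CongruenceSubgroup Matrix.SpecialLinearGroup
open P2MW.S_ModularForm_heckeT_slash_eq_self_of_mem_Gamma0.ModularForm.HeckeSlashInvariance
open scoped MatrixGroups OnePoint
open Fermat.Agent.JT3

namespace Fermat.Agent.LR

variable {l : ℕ} [Fact l.Prime]

/-- the `l + 1` cosets `SL(2,ℤ) · heckeRep l y` are pairwise distinct -/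
theorem lre_alpha_sep (y y' : OnePoint (ZMod l)) (g : SL(2, ℤ))
    (h : heckeRep l y = mapGL ℝ g * heckeRep l y') : y = y' := by
  have hl : l.Prime := Fact.out
  have hl0 : l ≠ 0 := hl.ne_zero
  have hpos : ∀ z : OnePoint (ZMod l), 0 < t2k_a l z ∧ 0 < t2k_d l z := by
    intro z
    induction z using OnePoint.rec with
    | infty => exact ⟨hl.pos, Nat.one_pos⟩
    | coe j => exact ⟨Nat.one_pos, hl.pos⟩
  obtain ⟨h1, h2, h3⟩ := t2k_tri_sep (hpos y).1 (hpos y').1 (hpos y').2 g _ _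
    (t2k_val_heckeRep hl0 y) (t2k_val_heckeRep hl0 y') h
  induction y using OnePoint.rec with
  | infty =>
    induction y' using OnePoint.rec with
    | infty => rfl
    | coe j' =>
      exfalso
      simp only [t2k_a_infty, t2k_a_coe] at h1
      exact hl.one_lt.ne' h1
  | coe j =>
    induction y' using OnePoint.rec with
    | infty =>
      exfalso
      simp only [t2k_a_infty, t2k_a_coe] at h1
      exact hl.one_lt.ne' h1.symm
    | coe j' =>
      simp only [t2k_d_coe, t2k_b_coe] at h3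
      rw [t2k_eq_of_dvd h3]


variable {N : ℕ} {q : ℕ} [Fact q.Prime] {A : Type*} [AddCommGroup A]

/-! ### (a) `A^*` is Hecke-equivariant -/

omit [Fact q.Prime] in
theorem lre_coc_incl (hlN : ¬ l ∣ N) (hlNq : ¬ l ∣ N * q) (x : OnePoint (ZMod l))
    (γ : Gamma0 (N * q)) :
    t2c_coc hlN x (lrm_incl N q γ) = lrm_incl N q (t2c_coc hlNq x γ) := by
  apply Subtype.ext
  apply t2c_coc_unique
  exact t2c_coc_spec hlNq x γ

omit [Fact q.Prime] in
/-- (a) `A^* ∘ T_l = T_l ∘ A^*` -/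
theorem lre_resA_T (hlN : ¬ l ∣ N) (hlNq : ¬ l ∣ N * q) (χ : Additive (Gamma0 N) →+ A) :
    lrm_resA N q (t2c_Tadd hlN χ) = t2c_Tadd hlNq (lrm_resA N q χ) := by
  refine lrt_ext fun γ => ?_
  show t2c_Tadd hlN χ (Additive.ofMul (lrm_incl N q γ)) =
    t2c_Tadd hlNq (lrm_resA N q χ) (Additive.ofMul γ)
  rw [t2c_Tadd_apply, t2c_Tadd_apply]
  refine Finset.sum_congr rfl fun x _ => ?_
  rw [lre_coc_incl hlN hlNq]
  rfl


/-! ### (c), (d): the transfers are Hecke-equivariant — a uniform statement -/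

section corComm

variable (hqN : ¬ q ∣ N) (hlN : ¬ l ∣ N) (hlNq : ¬ l ∣ N * q)
variable (x₀ : OnePoint (ZMod q)) (r : OnePoint (ZMod q) → Gamma0 N)
  (hr : ∀ x, (lrm_data hqN).act (r x) x₀ = x)
  (κ : lrt_stab (lrm_data hqN) x₀ →* Gamma0 (N * q))
  (ρ : GL (Fin 2) ℝ)
  (hρ : ∀ s : lrt_stab (lrm_data hqN) x₀,
    ρ * t2k_iota N (s : Gamma0 N) = t2k_iota (N * q) (κ s) * ρ)

include hρ in
/-- the system `S(x, y) = α_y ρ r_x` -/
theorem lre_S_spec (x : OnePoint (ZMod q)) (y : OnePoint (ZMod l)) (γ : Gamma0 N) :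
    heckeRep l y * ρ * t2k_iota N (r x) * t2k_iota N γ =
      t2k_iota (N * q) (t2c_coc hlNq y (κ (lrt_a (lrm_data hqN) x₀ r hr x γ))) *
        (heckeRep l (t2c_act ((κ (lrt_a (lrm_data hqN) x₀ r hr x γ) : Gamma0 (N * q)) : SL(2, ℤ)) y) *
          ρ * t2k_iota N (r ((lrm_data hqN).act γ x))) := by
  set a := lrt_a (lrm_data hqN) x₀ r hr x γ with ha
  have h1 : r x * γ = (a : Gamma0 N) * r ((lrm_data hqN).act γ x) := by
    rw [ha, lrt_a_coe]; group
  have h2 := t2c_coc_spec hlNq y (κ a)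
  rw [← t2k_iota_apply, ← t2k_iota_apply] at h2
  calc heckeRep l y * ρ * t2k_iota N (r x) * t2k_iota N γ
      = heckeRep l y * ρ * t2k_iota N (r x * γ) := by rw [map_mul]; simp only [mul_assoc]
    _ = heckeRep l y * (ρ * t2k_iota N (a : Gamma0 N)) *
          t2k_iota N (r ((lrm_data hqN).act γ x)) := by rw [h1, map_mul]; simp only [mul_assoc]
    _ = (heckeRep l y * t2k_iota (N * q) (κ a)) * ρ *
          t2k_iota N (r ((lrm_data hqN).act γ x)) := by rw [hρ]; simp only [mul_assoc]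
    _ = _ := by rw [h2]; simp only [mul_assoc]

include hρ in
/-- the system `R(x, y) = ρ r_x α_y` -/
theorem lre_R_spec (x : OnePoint (ZMod q)) (y : OnePoint (ZMod l)) (γ : Gamma0 N) :
    ρ * t2k_iota N (r x) * heckeRep l y * t2k_iota N γ =
      t2k_iota (N * q) (κ (lrt_a (lrm_data hqN) x₀ r hr x (t2c_coc hlN y γ))) *
        (ρ * t2k_iota N (r ((lrm_data hqN).act (t2c_coc hlN y γ) x)) *
          heckeRep l (t2c_act (γ : SL(2, ℤ)) y)) := by
  set a := lrt_a (lrm_data hqN) x₀ r hr x (t2c_coc hlN y γ) with ha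
  have h1 : r x * t2c_coc hlN y γ =
      (a : Gamma0 N) * r ((lrm_data hqN).act (t2c_coc hlN y γ) x) := by
    rw [ha, lrt_a_coe]; group
  have h2 := t2c_coc_spec hlN y γ
  rw [← t2k_iota_apply, ← t2k_iota_apply] at h2
  calc ρ * t2k_iota N (r x) * heckeRep l y * t2k_iota N γ
      = ρ * t2k_iota N (r x) * (heckeRep l y * t2k_iota N γ) := by simp only [mul_assoc]
    _ = ρ * t2k_iota N (r x * t2c_coc hlN y γ) * heckeRep l (t2c_act (γ : SL(2, ℤ)) y) := by
        rw [h2, map_mul]; simp only [mul_assoc]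
    _ = (ρ * t2k_iota N (a : Gamma0 N)) *
          t2k_iota N (r ((lrm_data hqN).act (t2c_coc hlN y γ) x)) *
          heckeRep l (t2c_act (γ : SL(2, ℤ)) y) := by rw [h1, map_mul]; simp only [mul_assoc]
    _ = _ := by rw [hρ]; simp only [mul_assoc]


include hr hρ in
theorem lre_R_sep (hκ : Function.Surjective κ) (x x' : OnePoint (ZMod q))
    (y y' : OnePoint (ZMod l)) (g : Gamma0 (N * q))
    (h : ρ * t2k_iota N (r x) * heckeRep l y =
      t2k_iota (N * q) g * (ρ * t2k_iota N (r x') * heckeRep l y')) : x = x' ∧ y = y' := by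
  obtain ⟨s, rfl⟩ := hκ g
  have h2 : ρ * (t2k_iota N (r x) * heckeRep l y) =
      ρ * (t2k_iota N (s : Gamma0 N) * t2k_iota N (r x') * heckeRep l y') := by
    calc ρ * (t2k_iota N (r x) * heckeRep l y)
        = ρ * t2k_iota N (r x) * heckeRep l y := (mul_assoc _ _ _).symm
      _ = t2k_iota (N * q) (κ s) * (ρ * t2k_iota N (r x') * heckeRep l y') := h
      _ = (t2k_iota (N * q) (κ s) * ρ) * (t2k_iota N (r x') * heckeRep l y') := by
          simp only [mul_assoc]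
      _ = (ρ * t2k_iota N (s : Gamma0 N)) * (t2k_iota N (r x') * heckeRep l y') := by rw [hρ]
      _ = _ := by simp only [mul_assoc]
  have h3 := mul_left_cancel h2
  have h1 : heckeRep l y =
      t2k_iota N ((r x)⁻¹ * (s : Gamma0 N) * r x') * heckeRep l y' := by
    rw [map_mul, map_mul, map_inv]
    calc heckeRep l y = (t2k_iota N (r x))⁻¹ * (t2k_iota N (r x) * heckeRep l y) := by
          rw [inv_mul_cancel_left]
      _ = _ := by rw [h3]; simp only [mul_assoc]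
  have hy : y = y' := lre_alpha_sep y y' _ (by rw [← t2k_iota_apply]; exact h1)
  subst hy
  have h4 : t2k_iota N ((r x)⁻¹ * (s : Gamma0 N) * r x') = 1 :=
    mul_right_cancel (by rw [← h1, one_mul] : _ * heckeRep l y = 1 * heckeRep l y)
  have h5 : (r x)⁻¹ * (s : Gamma0 N) * r x' = 1 := t2k_iota_injective (by rw [h4, map_one])
  have h6 : r x = (s : Gamma0 N) * r x' := by
    rw [mul_assoc, inv_mul_eq_one] at h5
    exact h5
  refine ⟨?_, rfl⟩
  rw [← hr x, h6, (lrm_data hqN).act_mul, (show (lrm_data hqN).act (s : Gamma0 N) x₀ = x₀ from s.2),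
    hr]

include hr in
theorem lre_S_sep
    (hS : ∀ (y y' : OnePoint (ZMod l)) (h : Gamma0 N) (g : Gamma0 (N * q)),
      heckeRep l y * ρ * t2k_iota N h = t2k_iota (N * q) g * heckeRep l y' * ρ →
        h ∈ lrt_stab (lrm_data hqN) x₀)
    (x x' : OnePoint (ZMod q)) (y y' : OnePoint (ZMod l)) (g : Gamma0 (N * q))
    (h : heckeRep l y * ρ * t2k_iota N (r x) =
      t2k_iota (N * q) g * (heckeRep l y' * ρ * t2k_iota N (r x'))) : x = x' ∧ y = y' := by
  have h1 : heckeRep l y * ρ * t2k_iota N (r x * (r x')⁻¹) =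
      t2k_iota (N * q) g * heckeRep l y' * ρ := by
    rw [map_mul, map_inv, ← mul_assoc, h]
    simp only [mul_assoc, mul_inv_cancel, mul_one]
  have hmem := hS y y' _ g h1
  have hx : x = x' := by
    have h2 : r x = (r x * (r x')⁻¹) * r x' := by group
    rw [← hr x, h2, (lrm_data hqN).act_mul,
      (show (lrm_data hqN).act (r x * (r x')⁻¹) x₀ = x₀ from hmem), hr]
  subst hx
  refine ⟨rfl, ?_⟩
  rw [mul_inv_cancel, map_one, mul_one] at h1
  have h3 : heckeRep l y = t2k_iota (N * q) g * heckeRep l y' := mul_right_cancel h1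
  exact lre_alpha_sep y y' _ (by rw [← t2k_iota_apply]; exact h3)

include hr hρ hlN in
theorem lre_match (σ : OnePoint (ZMod l) → OnePoint (ZMod l)) (t : OnePoint (ZMod l) → Gamma0 N)
    (hσ : ∀ y, heckeRep l y * ρ = ρ * t2k_iota N (t y) * heckeRep l (σ y))
    (x : OnePoint (ZMod q)) (y : OnePoint (ZMod l)) :
    ∃ (x' : OnePoint (ZMod q)) (y' : OnePoint (ZMod l)) (τ : Gamma0 (N * q)),
      heckeRep l y * ρ * t2k_iota N (r x) =
        t2k_iota (N * q) τ * (ρ * t2k_iota N (r x') * heckeRep l y') := by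
  set h : Gamma0 N := t y * t2c_coc hlN (σ y) (r x) with hh
  set x' := (lrm_data hqN).act h x₀ with hx'
  have hmem : h * (r x')⁻¹ ∈ lrt_stab (lrm_data hqN) x₀ := by
    show (lrm_data hqN).act (h * (r x')⁻¹) x₀ = x₀
    rw [(lrm_data hqN).act_mul, ← hx']
    have h1 := lrt_act_inv (lrm_data hqN) (r x') x₀
    rwa [hr] at h1
  refine ⟨x', t2c_act ((r x : Gamma0 N) : SL(2, ℤ)) (σ y), κ ⟨h * (r x')⁻¹, hmem⟩, ?_⟩
  have h2 := t2c_coc_spec hlN (σ y) (r x)
  rw [← t2k_iota_apply, ← t2k_iota_apply] at h2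
  have h3 := hρ ⟨h * (r x')⁻¹, hmem⟩
  have h4 : t2k_iota N h = t2k_iota N (h * (r x')⁻¹) * t2k_iota N (r x') := by
    rw [← map_mul, inv_mul_cancel_right]
  have h5 : t2k_iota N h = t2k_iota N (t y) * t2k_iota N (t2c_coc hlN (σ y) (r x)) := by
    rw [hh, map_mul]
  calc heckeRep l y * ρ * t2k_iota N (r x)
      = ρ * t2k_iota N (t y) * (heckeRep l (σ y) * t2k_iota N (r x)) := by
        rw [hσ]; simp only [mul_assoc]
    _ = ρ * t2k_iota N h * heckeRep l (t2c_act ((r x : Gamma0 N) : SL(2, ℤ)) (σ y)) := by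
        rw [h2, h5]; simp only [mul_assoc]
    _ = (ρ * t2k_iota N (h * (r x')⁻¹)) * t2k_iota N (r x') *
          heckeRep l (t2c_act ((r x : Gamma0 N) : SL(2, ℤ)) (σ y)) := by
        rw [h4]; simp only [mul_assoc]
    _ = _ := by
        rw [show t2k_iota N (h * (r x')⁻¹) =
          t2k_iota N ((⟨h * (r x')⁻¹, hmem⟩ : lrt_stab (lrm_data hqN) x₀) : Gamma0 N) from rfl, h3]
        simp only [mul_assoc]


include hρ in
/-- **the transfer `cor ∘ κ^*` commutes with `T_l`** (uniform statement for `A_*` and `B_*`) -/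
theorem lre_cor_T (hκ : Function.Surjective κ)
    (σ : OnePoint (ZMod l) → OnePoint (ZMod l)) (t : OnePoint (ZMod l) → Gamma0 N)
    (hσ : ∀ y, heckeRep l y * ρ = ρ * t2k_iota N (t y) * heckeRep l (σ y))
    (hS : ∀ (y y' : OnePoint (ZMod l)) (h : Gamma0 N) (g : Gamma0 (N * q)),
      heckeRep l y * ρ * t2k_iota N h = t2k_iota (N * q) g * heckeRep l y' * ρ →
        h ∈ lrt_stab (lrm_data hqN) x₀)
    (φ : Additive (Gamma0 (N * q)) →+ A) :
    t2c_Tadd hlN (lrt_cor (lrm_data hqN) x₀ r hr (lrm_pull κ φ)) =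
      lrt_cor (lrm_data hqN) x₀ r hr (lrm_pull κ (t2c_Tadd hlNq φ)) := by
  classical
  refine lrt_ext fun γ => ?_
  -- the matching
  choose fx fy fτ hf using fun z : OnePoint (ZMod q) × OnePoint (ZMod l) =>
    lre_match hqN hlN x₀ r hr κ ρ hρ σ t hσ z.1 z.2
  set ω : OnePoint (ZMod q) × OnePoint (ZMod l) → OnePoint (ZMod q) × OnePoint (ZMod l) :=
    fun z => (fx z, fy z) with hω
  have hinj : Function.Injective ω :=
    lre_match_injective (t2k_iota (N * q))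
      (fun z : OnePoint (ZMod q) × OnePoint (ZMod l) =>
        heckeRep l z.2 * ρ * t2k_iota N (r z.1))
      (fun z : OnePoint (ZMod q) × OnePoint (ZMod l) =>
        ρ * t2k_iota N (r z.1) * heckeRep l z.2)
      (fun z z' δ h => by
        obtain ⟨h1, h2⟩ := lre_S_sep hqN x₀ r hr ρ hS z.1 z'.1 z.2 z'.2 δ h
        exact Prod.ext h1 h2) ω fτ hf
  have hbij : Function.Bijective ω := by
    rw [Fintype.bijective_iff_injective_and_card]
    exact ⟨hinj, rfl⟩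
  have key := lre_sum_eq (t2k_iota N) (t2k_iota (N * q))
    (fun z : OnePoint (ZMod q) × OnePoint (ZMod l) => heckeRep l z.2 * ρ * t2k_iota N (r z.1))
    (fun z : OnePoint (ZMod q) × OnePoint (ZMod l) => ρ * t2k_iota N (r z.1) * heckeRep l z.2)
    (fun γ => Equiv.prodShear (lrt_perm (lrm_data hqN) γ) fun x =>
      t2c_perm ((κ (lrt_a (lrm_data hqN) x₀ r hr x γ) : Gamma0 (N * q)) : SL(2, ℤ)))
    (fun γ z => ((lrm_data hqN).act (t2c_coc hlN z.2 γ) z.1, t2c_act (γ : SL(2, ℤ)) z.2))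
    (fun z γ => t2c_coc hlNq z.2 (κ (lrt_a (lrm_data hqN) x₀ r hr z.1 γ)))
    (fun z γ => κ (lrt_a (lrm_data hqN) x₀ r hr z.1 (t2c_coc hlN z.2 γ)))
    (fun z γ => lre_S_spec hqN hlNq x₀ r hr κ ρ hρ z.1 z.2 γ)
    (fun z γ => lre_R_spec hqN hlN x₀ r hr κ ρ hρ z.1 z.2 γ)
    t2k_iota_injective
    (fun z z' δ h => by
      obtain ⟨h1, h2⟩ := lre_R_sep hqN x₀ r hr κ ρ hρ hκ z.1 z'.1 z.2 z'.2 δ h
      exact Prod.ext h1 h2)
    ω hbij fτ hf φ γ
  -- unfold both sides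
  have hL : lrt_ev (t2c_Tadd hlN (lrt_cor (lrm_data hqN) x₀ r hr (lrm_pull κ φ))) γ =
      ∑ y : OnePoint (ZMod l), ∑ x : OnePoint (ZMod q),
        lrt_ev φ (κ (lrt_a (lrm_data hqN) x₀ r hr x (t2c_coc hlN y γ))) := by
    show t2c_Tadd hlN _ (Additive.ofMul γ) = _
    rw [t2c_Tadd_apply]
    rfl
  have hR : lrt_ev (lrt_cor (lrm_data hqN) x₀ r hr (lrm_pull κ (t2c_Tadd hlNq φ))) γ =
      ∑ x : OnePoint (ZMod q), ∑ y : OnePoint (ZMod l),
        lrt_ev φ (t2c_coc hlNq y (κ (lrt_a (lrm_data hqN) x₀ r hr x γ))) := by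
    rw [lrt_cor_ev]
    rfl
  rw [hL, hR, Finset.sum_comm, ← Fintype.sum_prod_type', ← Fintype.sum_prod_type']
  exact key.symm

end corComm


/-! ### The instances -/

theorem lre_q_not_dvd_l (hlNq : ¬ l ∣ N * q) : ¬ (q : ℤ) ∣ (l : ℤ) := by
  intro h
  have h1 : q ∣ l := Int.natCast_dvd_natCast.mp h
  have h2 : q = l := (Nat.prime_dvd_prime_iff_eq Fact.out Fact.out).mp h1
  exact hlNq (h2 ▸ dvd_mul_left q N)

omit [Fact l.Prime] in
theorem lre_ad_cases (y : OnePoint (ZMod l)) :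
    (t2k_a l y = 1 ∨ t2k_a l y = l) ∧ (t2k_d l y = 1 ∨ t2k_d l y = l) := by
  induction y using OnePoint.rec with
  | infty => exact ⟨Or.inr rfl, Or.inl rfl⟩
  | coe j => exact ⟨Or.inl rfl, Or.inr rfl⟩

theorem lre_dvd_of_dvd_mul (hlNq : ¬ l ∣ N * q) {a : ℕ} (ha : a = 1 ∨ a = l) {z : ℤ}
    (h : (q : ℤ) ∣ (a : ℤ) * z) : (q : ℤ) ∣ z := by
  have hq : Prime (q : ℤ) := Nat.prime_iff_prime_int.mp Fact.out
  rcases ha with ha | ha
  · rw [ha] at h
    simpa using h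
  · rw [ha] at h
    rcases hq.dvd_or_dvd h with h1 | h1
    · exact absurd h1 (lre_q_not_dvd_l hlNq)
    · exact h1

/-- entry condition for `A_*`: `α_y h = g α_y'` with `g ∈ Γ₀(Nq)` forces `q ∣ h₁₀` -/
theorem lre_hS_infty (hlNq : ¬ l ∣ N * q) (y y' : OnePoint (ZMod l)) (h : Gamma0 N)
    (g : Gamma0 (N * q))
    (e : heckeRep l y * 1 * t2k_iota N h = t2k_iota (N * q) g * heckeRep l y' * 1) :
    (q : ℤ) ∣ (h : SL(2, ℤ)) 1 0 := by
  have hl0 : l ≠ 0 := (Fact.out : l.Prime).ne_zero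
  rw [mul_one, mul_one, t2k_iota_apply, t2k_iota_apply] at e
  have e10 := congrArg (fun M : GL (Fin 2) ℝ => (M : Matrix (Fin 2) (Fin 2) ℝ) 1 0) e
  simp only [Matrix.GeneralLinearGroup.coe_mul, t2k_val_heckeRep hl0, Matrix.mul_apply,
    Fin.sum_univ_two] at e10
  simp at e10
  have e10' : (t2k_d l y : ℤ) * (h : SL(2, ℤ)) 1 0 = (g : SL(2, ℤ)) 1 0 * (t2k_a l y' : ℤ) := by
    exact_mod_cast e10
  have hg : (q : ℤ) ∣ (g : SL(2, ℤ)) 1 0 := lrm_dvd_q N g
  exact lre_dvd_of_dvd_mul hlNq (lre_ad_cases y).2 (e10' ▸ Dvd.dvd.mul_right hg _)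


/-- entry condition for `B_*`: `α_y δ' h = g α_y' δ'` forces `q ∣ h₀₁` -/
theorem lre_hS_zero (hlNq : ¬ l ∣ N * q) (y y' : OnePoint (ZMod l)) (h : Gamma0 N)
    (g : Gamma0 (N * q))
    (e : heckeRep l y * heckeRep q ((0 : ZMod q) : OnePoint (ZMod q)) * t2k_iota N h =
      t2k_iota (N * q) g * heckeRep l y' * heckeRep q ((0 : ZMod q) : OnePoint (ZMod q))) :
    (q : ℤ) ∣ (h : SL(2, ℤ)) 0 1 := by
  have hl0 : l ≠ 0 := (Fact.out : l.Prime).ne_zero
  have hq0 : q ≠ 0 := (Fact.out : q.Prime).ne_zero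
  rw [t2k_iota_apply, t2k_iota_apply] at e
  have e01 := congrArg (fun M : GL (Fin 2) ℝ => (M : Matrix (Fin 2) (Fin 2) ℝ) 0 1) e
  simp only [Matrix.GeneralLinearGroup.coe_mul, t2k_val_heckeRep hl0, t2k_val_heckeRep hq0,
    Matrix.mul_apply, Fin.sum_univ_two] at e01
  simp at e01
  have e01' : (t2k_a l y : ℤ) * (h : SL(2, ℤ)) 0 1 =
      (q : ℤ) * ((g : SL(2, ℤ)) 0 0 * (t2k_b l y' : ℤ) + (g : SL(2, ℤ)) 0 1 * (t2k_d l y' : ℤ)
        - (t2k_b l y : ℤ) * (h : SL(2, ℤ)) 1 1) := by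
    have : ((t2k_a l y : ℤ) * (h : SL(2, ℤ)) 0 1 : ℝ) =
      (q : ℝ) * ((g : SL(2, ℤ)) 0 0 * (t2k_b l y' : ℝ) + (g : SL(2, ℤ)) 0 1 * (t2k_d l y' : ℝ)
        - (t2k_b l y : ℝ) * (h : SL(2, ℤ)) 1 1) := by
      push_cast
      linarith
    exact_mod_cast this
  exact lre_dvd_of_dvd_mul hlNq (lre_ad_cases y).1 (e01' ▸ dvd_mul_right _ _)


omit [Fact q.Prime] in
theorem lre_q_ne_zero (hlNq : ¬ l ∣ N * q) : ((q : ℕ) : ZMod l) ≠ 0 := by
  rw [Ne, ZMod.natCast_eq_zero_iff]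
  intro h
  exact hlNq (h.trans (dvd_mul_left q N))

omit [Fact q.Prime] in
/-- multiplication by `q` on `ℙ¹(𝔽_l)`, on the level of the representatives -/
theorem lre_exists_qmul (y : OnePoint (ZMod l)) :
    ∃ (y'' : OnePoint (ZMod l)) (m : ℤ), t2k_a l y'' = t2k_a l y ∧ t2k_d l y'' = t2k_d l y ∧
      ((q * t2k_b l y : ℕ) : ℤ) = t2k_b l y'' + m * t2k_d l y := by
  induction y using OnePoint.rec with
  | infty => exact ⟨∞, 0, rfl, rfl, by simp⟩
  | coe j =>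
    obtain ⟨m, hm⟩ := t2k_exists_int (n := l) (q * j.val) (((q : ZMod l) * j).val) (by
      push_cast
      rw [ZMod.natCast_zmod_val, ZMod.natCast_zmod_val])
    exact ⟨(((q : ZMod l) * j : ZMod l) : OnePoint (ZMod l)), m, rfl, rfl, hm⟩

omit [Fact q.Prime] in
/-- division by `q` on `ℙ¹(𝔽_l)`, on the level of the representatives -/
theorem lre_exists_qdiv (hlNq : ¬ l ∣ N * q) (y : OnePoint (ZMod l)) :
    ∃ (y'' : OnePoint (ZMod l)) (m : ℤ), t2k_a l y'' = t2k_a l y ∧ t2k_d l y'' = t2k_d l y ∧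
      ((t2k_b l y : ℕ) : ℤ) = ((q * t2k_b l y'' : ℕ) : ℤ) + m * t2k_d l y := by
  induction y using OnePoint.rec with
  | infty => exact ⟨∞, 0, rfl, rfl, by simp⟩
  | coe j =>
    obtain ⟨m, hm⟩ := t2k_exists_int (n := l) j.val (q * (((q : ZMod l))⁻¹ * j).val) (by
      push_cast
      rw [ZMod.natCast_zmod_val, ZMod.natCast_zmod_val, mul_inv_cancel_left₀ (lre_q_ne_zero hlNq)])
    exact ⟨((((q : ZMod l))⁻¹ * j : ZMod l) : OnePoint (ZMod l)), m, rfl, rfl, hm⟩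

/-- `α_y δ' = δ' · (translation) · α_{q y}` with `δ' = diag(1, q)` -/
theorem lre_hsigma_zero (N : ℕ) (y : OnePoint (ZMod l)) :
    ∃ (y'' : OnePoint (ZMod l)) (m : ℤ),
      heckeRep l y * heckeRep q ((0 : ZMod q) : OnePoint (ZMod q)) =
        heckeRep q ((0 : ZMod q) : OnePoint (ZMod q)) *
          t2k_iota N ⟨t2k_trans m, t2k_trans_mem N m⟩ * heckeRep l y'' := by
  have hl0 : l ≠ 0 := (Fact.out : l.Prime).ne_zero
  have hq0 : q ≠ 0 := (Fact.out : q.Prime).ne_zero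
  obtain ⟨y'', m, h1, h2, h3⟩ := lre_exists_qmul (q := q) y
  refine ⟨y'', m, ?_⟩
  have h3' : (q : ℝ) * (t2k_b l y : ℝ) = (t2k_b l y'' : ℝ) + (m : ℝ) * (t2k_d l y : ℝ) := by
    exact_mod_cast h3
  apply Matrix.GeneralLinearGroup.ext
  intro i j
  rw [t2k_iota_apply]
  simp only [Matrix.GeneralLinearGroup.coe_mul, t2k_val_heckeRep hl0, t2k_val_heckeRep hq0,
    Matrix.mul_apply, Fin.sum_univ_two]
  fin_cases i <;> fin_cases j <;>
    simp [t2k_trans_00, t2k_trans_01, t2k_trans_10, t2k_trans_11, h1, h2]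
  · linarith
  · ring


theorem lre_gamInf_surjective (hqN : ¬ q ∣ N) : Function.Surjective (lrm_gamInf hqN) := by
  intro g
  exact ⟨lrm_toStabInf hqN g, Subtype.ext rfl⟩

theorem lre_beta_mem_stab_zero (hqN : ¬ q ∣ N) (g : Gamma0 (N * q)) :
    lrm_beta hqN g ∈ lrt_stab (lrm_data hqN) ((0 : ZMod q) : OnePoint (ZMod q)) := by
  show t2c_act ((lrm_beta hqN g : Gamma0 N) : SL(2, ℤ)) ((0 : ZMod q) : OnePoint (ZMod q)) = _
  rw [lrm_act_zero, (lrm_beta_entries hqN g).2.1]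
  exact dvd_mul_right _ _

theorem lre_gamZero_surjective (hqN : ¬ q ∣ N) : Function.Surjective (lrm_gamZero hqN) := by
  intro g
  refine ⟨⟨lrm_beta hqN g, lre_beta_mem_stab_zero hqN g⟩, ?_⟩
  have hq : (q : ℤ) ≠ 0 := by exact_mod_cast (Fact.out : q.Prime).ne_zero
  obtain ⟨a1, a2, a3, a4⟩ := lrm_beta_entries hqN g
  obtain ⟨b1, b2, b3, b4⟩ := lrm_gamZero_entries hqN ⟨lrm_beta hqN g, lre_beta_mem_stab_zero hqN g⟩
  apply Subtype.ext
  apply Subtype.ext
  ext i j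
  fin_cases i <;> fin_cases j
  · exact b1.trans a1
  · exact mul_left_cancel₀ hq (b2.trans a2)
  · refine mul_left_cancel₀ hq ?_
    show (q : ℤ) * _ = (q : ℤ) * (g : SL(2, ℤ)) 1 0
    rw [← a3]
    exact congrArg _ b3
  · exact b4.trans a4

/-- (c) `T_l ∘ A_* = A_* ∘ T_l` -/
theorem lre_corA_T (hqN : ¬ q ∣ N) (hlN : ¬ l ∣ N) (hlNq : ¬ l ∣ N * q)
    (φ : Additive (Gamma0 (N * q)) →+ A) :
    t2c_Tadd hlN (lrm_corA hqN φ) = lrm_corA hqN (t2c_Tadd hlNq φ) :=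
  lre_cor_T hqN hlN hlNq ∞ (lrm_rInf hqN) (lrm_rInf_spec hqN) (lrm_gamInf hqN) 1
    (fun s => by rw [one_mul, mul_one]; rfl) (lre_gamInf_surjective hqN) id (fun _ => 1)
    (fun y => by rw [map_one, mul_one, one_mul, one_mul]; rfl)
    (fun y y' h g e => (lrm_act_infty _).mpr (lre_hS_infty hlNq y y' h g e)) φ

/-- (d) `T_l ∘ B_* = B_* ∘ T_l` -/
theorem lre_corB_T (hqN : ¬ q ∣ N) (hlN : ¬ l ∣ N) (hlNq : ¬ l ∣ N * q)
    (φ : Additive (Gamma0 (N * q)) →+ A) :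
    t2c_Tadd hlN (lrm_corB hqN φ) = lrm_corB hqN (t2c_Tadd hlNq φ) := by
  choose σ m hσ using fun y : OnePoint (ZMod l) => lre_hsigma_zero (q := q) N y
  exact lre_cor_T hqN hlN hlNq ((0 : ZMod q) : OnePoint (ZMod q)) (lrm_rZero hqN)
    (lrm_rZero_spec hqN) (lrm_gamZero hqN) (heckeRep q ((0 : ZMod q) : OnePoint (ZMod q)))
    (fun s => by
      have h := t2c_coc_spec hqN ((0 : ZMod q) : OnePoint (ZMod q)) (s : Gamma0 N)
      rw [(show t2c_act ((s : Gamma0 N) : SL(2, ℤ)) ((0 : ZMod q) : OnePoint (ZMod q)) = _ from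
        s.2)] at h
      exact h)
    (lre_gamZero_surjective hqN) σ (fun y => ⟨t2k_trans (m y), t2k_trans_mem N (m y)⟩) hσ
    (fun y y' h g e => (lrm_act_zero _).mpr (lre_hS_zero hlNq y y' h g e)) φ

end Fermat.Agent.LR
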