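/-
LR / node [MTX+], part 2: `B^* ∘ T_l = T_l ∘ B^*` (`lre_resB_T`), `l` prime, `l ∤ N q`.

Two coset systems for `Γ₀(Nq)` embedded by `ι_N ∘ β` with values in `Γ₀(N)`:
`r x = α_x` (cocycle `c^N_x(β γ)`) and `s y = δ α_y δ⁻¹ = [[a, q b], [0, d]]` (cocycle `β(c^{Nq}_y γ)`),
matched by `x ↦ q⁻¹ x` and integer translations.  Prefix `lre_`.
-/
import Mathlib
import Fermat.Agent.LR.MTX.EquivCor

set_option autoImplicit false

noncomputable section

open CongruenceSubgroup Matrix.SpecialLinearGroup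
open P2MW.S_ModularForm_heckeT_slash_eq_self_of_mem_Gamma0.ModularForm.HeckeSlashInvariance
open scoped MatrixGroups OnePoint
open Fermat.Agent.JT3

namespace Fermat.Agent.LR

variable {l : ℕ} [Fact l.Prime] {N : ℕ} {q : ℕ} [Fact q.Prime] {A : Type*} [AddCommGroup A]

/-- `δ α_y δ⁻¹ = [[a, q b], [0, d]]`, `δ = diag(q, 1)` -/
def lre_S (q l : ℕ) [Fact l.Prime] [Fact q.Prime] (y : OnePoint (ZMod l)) : GL (Fin 2) ℝ :=
  ModularForm.upperTriangularGL (t2k_a l y : ℝ) ((q * t2k_b l y : ℕ) : ℝ) (t2k_d l y : ℝ) (by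
    have hl : (l : ℝ) ≠ 0 := by exact_mod_cast (Fact.out : l.Prime).ne_zero
    induction y using OnePoint.rec with
    | infty => simpa [t2k_a, t2k_d] using hl
    | coe j => simpa [t2k_a, t2k_d] using hl)

theorem lre_S_val (y : OnePoint (ZMod l)) :
    ((lre_S q l y : GL (Fin 2) ℝ) : Matrix (Fin 2) (Fin 2) ℝ) =
      !![(t2k_a l y : ℝ), ((q * t2k_b l y : ℕ) : ℝ); 0, (t2k_d l y : ℝ)] := rfl

theorem lre_delta_S (y : OnePoint (ZMod l)) :
    heckeRep q ∞ * heckeRep l y = lre_S q l y * heckeRep q ∞ := by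
  have hl0 : l ≠ 0 := (Fact.out : l.Prime).ne_zero
  have hq0 : q ≠ 0 := (Fact.out : q.Prime).ne_zero
  apply Matrix.GeneralLinearGroup.ext
  intro i j
  simp only [Matrix.GeneralLinearGroup.coe_mul, t2k_val_heckeRep hl0, t2k_val_heckeRep hq0,
    lre_S_val, Matrix.mul_apply, Fin.sum_univ_two]
  fin_cases i <;> fin_cases j <;> simp [t2k_a, t2k_b, t2k_d]
  ring

theorem lre_delta_iota (hqN : ¬ q ∣ N) (γ : Gamma0 (N * q)) :
    heckeRep q ∞ * t2k_iota (N * q) γ = t2k_iota N (lrm_beta hqN γ) * heckeRep q ∞ := by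
  have h := t2c_coc_spec hqN ∞ (lrm_incl N q γ)
  rw [(show t2c_act ((lrm_incl N q γ : Gamma0 N) : SL(2, ℤ)) (∞ : OnePoint (ZMod q)) = ∞ from
    (lrm_act_infty _).mpr (lrm_dvd_q N γ))] at h
  exact h

/-- the system `s y = δ α_y δ⁻¹` -/
theorem lre_S_spec' (hqN : ¬ q ∣ N) (hlNq : ¬ l ∣ N * q) (y : OnePoint (ZMod l))
    (γ : Gamma0 (N * q)) :
    lre_S q l y * t2k_iota N (lrm_beta hqN γ) =
      t2k_iota N (lrm_beta hqN (t2c_coc hlNq y γ)) *
        lre_S q l (t2c_act ((γ : Gamma0 (N * q)) : SL(2, ℤ)) y) := by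
  have h2 := t2c_coc_spec hlNq y γ
  rw [← t2k_iota_apply, ← t2k_iota_apply] at h2
  refine mul_right_cancel (b := heckeRep q ∞) ?_
  calc lre_S q l y * t2k_iota N (lrm_beta hqN γ) * heckeRep q ∞
      = lre_S q l y * (heckeRep q ∞ * t2k_iota (N * q) γ) := by
        rw [lre_delta_iota hqN]; simp only [mul_assoc]
    _ = heckeRep q ∞ * (heckeRep l y * t2k_iota (N * q) γ) := by
        rw [← mul_assoc, ← lre_delta_S]; simp only [mul_assoc]
    _ = (heckeRep q ∞ * t2k_iota (N * q) (t2c_coc hlNq y γ)) *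
          heckeRep l (t2c_act ((γ : Gamma0 (N * q)) : SL(2, ℤ)) y) := by
        rw [h2]; simp only [mul_assoc]
    _ = t2k_iota N (lrm_beta hqN (t2c_coc hlNq y γ)) *
          (heckeRep q ∞ * heckeRep l (t2c_act ((γ : Gamma0 (N * q)) : SL(2, ℤ)) y)) := by
        rw [lre_delta_iota hqN]; simp only [mul_assoc]
    _ = _ := by rw [lre_delta_S]; simp only [mul_assoc]

theorem lre_S_sep' (hlNq : ¬ l ∣ N * q) (y y' : OnePoint (ZMod l)) (g : Gamma0 N)
    (h : lre_S q l y = t2k_iota N g * lre_S q l y') : y = y' := by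
  have hl : l.Prime := Fact.out
  have hpos : ∀ z : OnePoint (ZMod l), 0 < t2k_a l z ∧ 0 < t2k_d l z := by
    intro z
    induction z using OnePoint.rec with
    | infty => exact ⟨hl.pos, Nat.one_pos⟩
    | coe j => exact ⟨Nat.one_pos, hl.pos⟩
  obtain ⟨h1, h2, h3⟩ := t2k_tri_sep (hpos y).1 (hpos y').1 (hpos y').2 (g : SL(2, ℤ)) _ _
    (lre_S_val y) (lre_S_val y') h
  induction y using OnePoint.rec with
  | infty =>
    induction y' using OnePoint.rec with
    | infty => rfl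
    | coe j' =>
      exfalso
      simp only [t2k_a_infty, t2k_a_coe] at h1
      exact hl.one_lt.ne' h1
  | coe j =>
    induction y' using OnePoint.rec with
    | infty =>
      exfalso
      simp only [t2k_a_infty, t2k_a_coe] at h1
      exact hl.one_lt.ne' h1.symm
    | coe j' =>
      simp only [t2k_d_coe, t2k_b_coe] at h3
      have h4 : (l : ℤ) ∣ (q : ℤ) * ((j.val : ℤ) - j'.val) := by
        have : ((q * j.val : ℕ) : ℤ) - ((q * j'.val : ℕ) : ℤ) = (q : ℤ) * ((j.val : ℤ) - j'.val) := by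
          push_cast; ring
        rw [← this]; exact h3
      have hlp : Prime (l : ℤ) := Nat.prime_iff_prime_int.mp hl
      rcases hlp.dvd_or_dvd h4 with h5 | h5
      · exfalso
        have h6 : l ∣ q := Int.natCast_dvd_natCast.mp h5
        exact hlNq (h6.trans (dvd_mul_left q N))
      · rw [t2k_eq_of_dvd h5]

theorem lre_match' (hlNq : ¬ l ∣ N * q) (x : OnePoint (ZMod l)) :
    ∃ (y : OnePoint (ZMod l)) (m : ℤ),
      heckeRep l x = t2k_iota N ⟨t2k_trans m, t2k_trans_mem N m⟩ * lre_S q l y := by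
  have hl0 : l ≠ 0 := (Fact.out : l.Prime).ne_zero
  obtain ⟨y, m, h1, h2, h3⟩ := lre_exists_qdiv (q := q) hlNq x
  refine ⟨y, m, ?_⟩
  rw [t2k_iota_apply]
  exact t2k_eq_trans_mul m h1.symm h2.symm (by rw [h2]; exact h3) _ _ (t2k_val_heckeRep hl0 x)
    (lre_S_val y)

/-- (b) `B^* ∘ T_l = T_l ∘ B^*` -/
theorem lre_resB_T (hqN : ¬ q ∣ N) (hlN : ¬ l ∣ N) (hlNq : ¬ l ∣ N * q)
    (χ : Additive (Gamma0 N) →+ A) :
    lrm_resB hqN (t2c_Tadd hlN χ) = t2c_Tadd hlNq (lrm_resB hqN χ) := by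
  classical
  refine lrt_ext fun γ => ?_
  choose σ m hm using fun x : OnePoint (ZMod l) => lre_match' (N := N) (q := q) hlNq x
  have hinj : Function.Injective σ :=
    lre_match_injective (t2k_iota N) (fun x : OnePoint (ZMod l) => heckeRep l x)
      (fun y : OnePoint (ZMod l) => lre_S q l y)
      (fun x x' δ h => lre_alpha_sep x x' (δ : SL(2, ℤ)) h) σ
      (fun x => ⟨t2k_trans (m x), t2k_trans_mem N (m x)⟩) hm
  have hbij : Function.Bijective σ := by
    rw [Fintype.bijective_iff_injective_and_card]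
    exact ⟨hinj, rfl⟩
  have key := lre_sum_eq ((t2k_iota N).comp (lrm_beta hqN)) (t2k_iota N)
    (fun x : OnePoint (ZMod l) => heckeRep l x) (fun y : OnePoint (ZMod l) => lre_S q l y)
    (fun γ => t2c_perm ((lrm_beta hqN γ : Gamma0 N) : SL(2, ℤ)))
    (fun γ y => t2c_act ((γ : Gamma0 (N * q)) : SL(2, ℤ)) y)
    (fun x γ => t2c_coc hlN x (lrm_beta hqN γ))
    (fun y γ => lrm_beta hqN (t2c_coc hlNq y γ))
    (fun x γ => by
      have h := t2c_coc_spec hlN x (lrm_beta hqN γ)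
      rw [← t2k_iota_apply, ← t2k_iota_apply] at h
      exact h)
    (fun y γ => lre_S_spec' hqN hlNq y γ)
    t2k_iota_injective
    (fun y y' δ h => lre_S_sep' hlNq y y' δ h)
    σ hbij (fun x => ⟨t2k_trans (m x), t2k_trans_mem N (m x)⟩) hm χ γ
  show t2c_Tadd hlN χ (Additive.ofMul (lrm_beta hqN γ)) =
    t2c_Tadd hlNq (lrm_resB hqN χ) (Additive.ofMul γ)
  rw [t2c_Tadd_apply, t2c_Tadd_apply]
  exact key

end Fermat.Agent.LR
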