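/-
LR / node [MTX+], part 3: Hecke equivariance on homology `H(M) = Γ₀(M)^ab / (par, ell)`:
for a prime `l ∤ N q`, with `T_l = t2e_TH` at the levels `N` and `N q`,

* `lre_A_TH`  : `A ∘ T_l = T_l ∘ A`,   `lre_B_TH`  : `B ∘ T_l = T_l ∘ B`   (`H(Nq) → H(N)`),
* `lre_At_TH` : `Aᵗ ∘ T_l = T_l ∘ Aᵗ`, `lre_Bt_TH` : `Bᵗ ∘ T_l = T_l ∘ Bᵗ` (`H(N) → H(Nq)`),
* `lre_i_TH`, `lre_idag_TH` : `i` and `i†` on `Hom(H(·), M)` commute with `ψ ↦ ψ ∘ T_l`.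
Prefix `lre_`.
-/
import Mathlib
import Fermat.Agent.LR.MTX.EquivResB

set_option autoImplicit false

noncomputable section

open CongruenceSubgroup Matrix.SpecialLinearGroup
open scoped MatrixGroups OnePoint
open Fermat.Agent.JT3

namespace Fermat.Agent.LR

variable {l : ℕ} [Fact l.Prime] {N : ℕ} {q : ℕ} [Fact q.Prime]

omit [Fact q.Prime] in
theorem lre_A_TH (hlN : ¬ l ∣ N) (hlNq : ¬ l ∣ N * q) :
    (lrh_A N q).comp (t2e_TH hlNq) = (t2e_TH hlN).comp (lrh_A N q) := by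
  apply lrh_comp_mk_injective
  rw [AddMonoidHom.comp_assoc, lrh_TH_comp_mk, ← t2c_Tadd_comp, lrh_A_comp_mk, ← lre_resA_T hlN hlNq,
    ← lrh_TH_comp_mk, AddMonoidHom.comp_assoc, lrh_A_comp_mk]
  rfl

theorem lre_B_TH (hqN : ¬ q ∣ N) (hlN : ¬ l ∣ N) (hlNq : ¬ l ∣ N * q) :
    (lrh_B hqN).comp (t2e_TH hlNq) = (t2e_TH hlN).comp (lrh_B hqN) := by
  apply lrh_comp_mk_injective
  rw [AddMonoidHom.comp_assoc, lrh_TH_comp_mk, ← t2c_Tadd_comp, lrh_B_comp_mk,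
    ← lre_resB_T hqN hlN hlNq, ← lrh_TH_comp_mk, AddMonoidHom.comp_assoc, lrh_B_comp_mk]
  rfl

theorem lre_At_TH (hqN : ¬ q ∣ N) (hlN : ¬ l ∣ N) (hlNq : ¬ l ∣ N * q) :
    (lrh_At hqN).comp (t2e_TH hlN) = (t2e_TH hlNq).comp (lrh_At hqN) := by
  apply lrh_comp_mk_injective
  rw [AddMonoidHom.comp_assoc, lrh_TH_comp_mk, ← t2c_Tadd_comp, lrh_At_comp_mk,
    lre_corA_T hqN hlN hlNq, ← lrh_TH_comp_mk, lrh_corA_comp, AddMonoidHom.comp_assoc,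
    lrh_At_comp_mk]

theorem lre_Bt_TH (hqN : ¬ q ∣ N) (hlN : ¬ l ∣ N) (hlNq : ¬ l ∣ N * q) :
    (lrh_Bt hqN).comp (t2e_TH hlN) = (t2e_TH hlNq).comp (lrh_Bt hqN) := by
  apply lrh_comp_mk_injective
  rw [AddMonoidHom.comp_assoc, lrh_TH_comp_mk, ← t2c_Tadd_comp, lrh_Bt_comp_mk,
    lre_corB_T hqN hlN hlNq, ← lrh_TH_comp_mk, lrh_corB_comp, AddMonoidHom.comp_assoc,
    lrh_Bt_comp_mk]

/-- `i` commutes with `ψ ↦ ψ ∘ T_l` -/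
theorem lre_i_TH (hqN : ¬ q ∣ N) (hlN : ¬ l ∣ N) (hlNq : ¬ l ∣ N * q) (M : Type*) [AddCommGroup M]
    (ψ : (gh_H N →+ M) × (gh_H N →+ M)) :
    (lrh_i hqN M ψ).comp (t2e_TH hlNq) =
      lrh_i hqN M (ψ.1.comp (t2e_TH hlN), ψ.2.comp (t2e_TH hlN)) := by
  show (ψ.1.comp (lrh_A N q) + ψ.2.comp (lrh_B hqN)).comp (t2e_TH hlNq) =
    (ψ.1.comp (t2e_TH hlN)).comp (lrh_A N q) + (ψ.2.comp (t2e_TH hlN)).comp (lrh_B hqN)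
  rw [AddMonoidHom.add_comp, AddMonoidHom.comp_assoc, AddMonoidHom.comp_assoc,
    lre_A_TH hlN hlNq, lre_B_TH hqN hlN hlNq, AddMonoidHom.comp_assoc, AddMonoidHom.comp_assoc]

/-- `i†` commutes with `ψ ↦ ψ ∘ T_l` -/
theorem lre_idag_TH (hqN : ¬ q ∣ N) (hlN : ¬ l ∣ N) (hlNq : ¬ l ∣ N * q) (M : Type*)
    [AddCommGroup M] (φ : gh_H (N * q) →+ M) :
    lrh_idag hqN M (φ.comp (t2e_TH hlNq)) =
      (((lrh_idag hqN M φ).1).comp (t2e_TH hlN), ((lrh_idag hqN M φ).2).comp (t2e_TH hlN)) := by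
  refine Prod.ext ?_ ?_
  · show (φ.comp (t2e_TH hlNq)).comp (lrh_At hqN) = (φ.comp (lrh_At hqN)).comp (t2e_TH hlN)
    rw [AddMonoidHom.comp_assoc, AddMonoidHom.comp_assoc, lre_At_TH hqN hlN hlNq]
  · show (φ.comp (t2e_TH hlNq)).comp (lrh_Bt hqN) = (φ.comp (lrh_Bt hqN)).comp (t2e_TH hlN)
    rw [AddMonoidHom.comp_assoc, AddMonoidHom.comp_assoc, lre_Bt_TH hqN hlN hlNq]

end Fermat.Agent.LR
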